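/-
Rational points on the quartic model of the modular curve of level 15.
-/
import Mathlib.NumberTheory.PythagoreanTriples
import Mathlib.RingTheory.Int.Basic
import Mathlib.Tactic

set_option autoImplicit false

namespace FLTAgent.X015

/-- If `a*b = c*d` with `gcd(a,b)=1` and `gcd(c,d)=1`, refine into four factors. -/
lemma four_factor {X Y p q : ℤ} (hp : p ≠ 0) (h : X * Y = p * q) (_hXY : IsCoprime X Y)
    (hpq : IsCoprime p q) :
    ∃ a b c d : ℤ, p = a * c ∧ q = b * d ∧ X = a * b ∧ Y = c * d ∧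
      IsCoprime a d ∧ IsCoprime b c := by
  have hg : Int.gcd X p ≠ 0 := by
    intro h0; exact hp (Int.gcd_eq_zero_iff.mp h0).2
  obtain ⟨g, hgdef⟩ : ∃ g : ℤ, g = (Int.gcd X p : ℤ) := ⟨_, rfl⟩
  obtain ⟨b, hb⟩ : g ∣ X := hgdef ▸ Int.gcd_dvd_left X p
  obtain ⟨c, hc⟩ : g ∣ p := hgdef ▸ Int.gcd_dvd_right X p
  have hg0 : g ≠ 0 := by rw [hgdef]; exact_mod_cast hg
  have hbc : IsCoprime b c := by
    have := Int.isCoprime_iff_gcd_eq_one (m := b) (n := c)
    rw [this]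
    have h1 : (Int.gcd X p : ℤ) = g := hgdef.symm
    rw [hb, hc, Int.gcd_mul_left] at h1
    have hgnn : (g.natAbs : ℤ) = g := Int.natAbs_of_nonneg (by rw [hgdef]; positivity)
    push_cast at h1
    rw [show |g| = g from abs_of_nonneg (by rw [hgdef]; positivity)] at h1
    have : ((Int.gcd b c : ℤ)) = 1 := by
      apply mul_left_cancel₀ hg0; rw [h1, mul_one]
    exact_mod_cast this
  have h2 : b * Y = c * q := by
    apply mul_left_cancel₀ hg0
    calc g * (b * Y) = X * Y := by rw [hb]; ring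
      _ = p * q := h
      _ = g * (c * q) := by rw [hc]; ring
  have hcY : c ∣ Y := (hbc.symm).dvd_of_dvd_mul_left ⟨q, h2⟩
  obtain ⟨d, hd⟩ := hcY
  have hc0 : c ≠ 0 := by rintro rfl; exact hp (by rw [hc]; ring)
  have hq : q = b * d := by
    apply mul_left_cancel₀ hc0; rw [← h2, hd]; ring
  refine ⟨g, b, c, d, hc, hq, hb, hd, ?_, hbc⟩
  rw [hc, hq] at hpq
  exact (hpq.of_mul_left_left).of_mul_right_right

lemma odd_sq_emod_eight {x : ℤ} (h : x % 2 = 1) : x ^ 2 % 8 = 1 := by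
  obtain ⟨k, rfl⟩ : ∃ k, x = 2 * k + 1 := ⟨x / 2, by omega⟩
  obtain ⟨r, hr⟩ := Int.even_mul_succ_self k
  have : (2 * k + 1) ^ 2 = 8 * r + 1 := by linear_combination 4 * hr
  omega

lemma pyth_param {n M u : ℤ} (hn : n % 2 = 1) (hco : IsCoprime n M) (h : n ^ 2 + M ^ 2 = u ^ 2) :
    ∃ α β : ℤ, n = α ^ 2 - β ^ 2 ∧ M = 2 * α * β ∧ IsCoprime α β ∧
      (α % 2 = 0 ∧ β % 2 = 1 ∨ α % 2 = 1 ∧ β % 2 = 0) ∧ u ^ 2 = (α ^ 2 + β ^ 2) ^ 2 := by
  have hu : u ≠ 0 := by
    rintro rfl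
    have : n = 0 := by nlinarith
    subst this; simp at hn
  have hpt : PythagoreanTriple n M |u| := by
    unfold PythagoreanTriple
    rw [abs_mul_abs_self]; linear_combination h
  obtain ⟨α, β, h1, h2, h3, h4, h5, -⟩ := hpt.coprime_classification'
    (Int.isCoprime_iff_gcd_eq_one.mp hco) hn (abs_pos.mpr hu)
  exact ⟨α, β, h1, h2, Int.isCoprime_iff_gcd_eq_one.mpr h4, h5, by rw [← h3, sq_abs]⟩

lemma dvd_fifteen_cases {k : ℤ} (h : k ∣ 15) :
    k = 1 ∨ k = -1 ∨ k = 3 ∨ k = -3 ∨ k = 5 ∨ k = -5 ∨ k = 15 ∨ k = -15 := by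
  have hle : k.natAbs ≤ 15 := Nat.le_of_dvd (by norm_num) (Int.natAbs_dvd_natAbs.mpr h)
  have : -15 ≤ k ∧ k ≤ 15 := by omega
  obtain ⟨l, u⟩ := this
  interval_cases k <;> simp_all

/-- Descent step and conclusion: `n² + M²` and `n² + 16 M²` are both squares only if `M = 0`. -/
theorem no_concordant : ∀ (N : ℕ) (n M u v : ℤ), M.natAbs = N → n % 2 = 1 → IsCoprime n M →
    n ^ 2 + M ^ 2 = u ^ 2 → n ^ 2 + 16 * M ^ 2 = v ^ 2 → M = 0 := by
  intro N
  induction N using Nat.strong_induction_on with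
  | _ N IH =>
    intro n M u v hN hn hco h1 h2
    wlog hn4 : n % 4 = 1 generalizing n
    · exact this (-n) (by omega) hco.neg_left (by linear_combination h1)
        (by linear_combination h2) (by omega)
    by_contra hM
    obtain ⟨α, β, hα, hMαβ, hαβ, hpar, -⟩ := pyth_param hn hco h1
    have hodd4 : ∀ x y : ℤ, n = x ^ 2 - y ^ 2 →
        (x % 2 = 0 ∧ y % 2 = 1 ∨ x % 2 = 1 ∧ y % 2 = 0) → x % 2 = 1 ∧ y % 2 = 0 := by
      intro x y hxy hp
      rcases hp with ⟨hx, hy⟩ | h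
      · exfalso
        obtain ⟨k, rfl⟩ : ∃ k, x = 2 * k := ⟨x / 2, by omega⟩
        have := odd_sq_emod_eight hy
        have h4 : (2 * k) ^ 2 = 4 * k ^ 2 := by ring
        omega
      · exact h
    have hco4 : IsCoprime n (4 * M) := by
      refine IsCoprime.mul_right ?_ hco
      rw [show (4 : ℤ) = 2 ^ 2 by norm_num]
      refine IsCoprime.pow_right ⟨1, -(n / 2), by omega⟩
    obtain ⟨γ, δ, hγ, hMγδ, hγδ, hpar', -⟩ := pyth_param hn hco4 (u := v) (by linear_combination h2)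
    obtain ⟨hα2, hβ2⟩ := hodd4 α β hα hpar
    obtain ⟨hγ2, hδ2⟩ := hodd4 γ δ hγ hpar'
    have hprod : γ * δ = 4 * (α * β) := by linarith
    have h4δ : (4 : ℤ) ∣ δ := by
      refine IsCoprime.dvd_of_dvd_mul_left (y := γ) ?_ ⟨α * β, hprod⟩
      rw [show (4 : ℤ) = 2 ^ 2 by norm_num]
      exact IsCoprime.pow_left ⟨-(γ / 2), 1, by omega⟩
    obtain ⟨δ', rfl⟩ := h4δ
    have hprod' : γ * δ' = α * β := by linarith
    have hα0 : α ≠ 0 := by omega
    obtain ⟨a, b, c, d, rfl, rfl, rfl, rfl, had, hbc⟩ :=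
      four_factor hα0 hprod' hγδ.of_mul_right_right hαβ
    have ha2 : a % 2 = 1 := by
      rw [Int.mul_emod] at hα2; rcases Int.emod_two_eq a with h | h <;> simp_all
    have hb2 : b % 2 = 1 := by
      rw [Int.mul_emod] at hγ2; rcases Int.emod_two_eq b with h | h <;> simp_all
    have heq : a ^ 2 * (c ^ 2 - b ^ 2) = d ^ 2 * (b ^ 2 - 16 * c ^ 2) := by
      linear_combination hγ - hα
    have hd : d ≠ 0 := by rintro rfl; exact hM (by rw [hMαβ]; ring)
    obtain ⟨k, hk⟩ : d ^ 2 ∣ c ^ 2 - b ^ 2 :=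
      (had.symm.pow (m := 2) (n := 2)).dvd_of_dvd_mul_left ⟨_, heq⟩
    have hk' : b ^ 2 - 16 * c ^ 2 = k * a ^ 2 := by
      apply mul_left_cancel₀ (pow_ne_zero 2 hd)
      rw [← heq, hk]; ring
    have hkc : k ∣ 15 * c ^ 2 := ⟨-(a ^ 2 + d ^ 2), by linear_combination (-1 : ℤ) * hk - hk'⟩
    have hkb : k ∣ 15 * b ^ 2 := ⟨-(a ^ 2 + 16 * d ^ 2), by linear_combination (-16 : ℤ) * hk - hk'⟩
    have hk15 : k ∣ 15 := by
      obtain ⟨r, s, hrs⟩ := (hbc.pow (m := 2) (n := 2))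
      rw [show (15 : ℤ) = r * (15 * b ^ 2) + s * (15 * c ^ 2) by linear_combination (-15 : ℤ) * hrs]
      exact dvd_add (hkb.mul_left r) (hkc.mul_left s)
    have hc0 : c ≠ 0 := by rintro rfl; exact hα0 (mul_zero a)
    have hkneg : k < 0 := by
      by_contra hge
      have hge : 0 ≤ k := not_lt.mp hge
      have : 15 * c ^ 2 ≤ 0 := by nlinarith [mul_nonneg hge (sq_nonneg a), mul_nonneg hge (sq_nonneg d)]
      have : 0 < c ^ 2 := by positivity
      linarith
    have hb8 := odd_sq_emod_eight hb2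
    have ha8 := odd_sq_emod_eight ha2
    have hk15' : k = -15 := by
      rcases dvd_fifteen_cases hk15 with h | h | h | h | h | h | h | h <;>
        subst h <;> first | rfl | omega
    subst hk15'
    have e1 : a ^ 2 + d ^ 2 = c ^ 2 :=
      mul_left_cancel₀ (by norm_num : (15 : ℤ) ≠ 0) (by linear_combination hk + hk')
    have e2 : a ^ 2 + 16 * d ^ 2 = b ^ 2 :=
      mul_left_cancel₀ (by norm_num : (15 : ℤ) ≠ 0) (by linear_combination 16 * hk + hk')
    have hlt : d.natAbs < N := by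
      rw [← hN, hMαβ]
      simp only [Int.natAbs_mul]
      have h1 : 1 ≤ a.natAbs := by omega
      have h2 : 1 ≤ b.natAbs := by omega
      have h3 : 1 ≤ c.natAbs := by omega
      have h4 : 1 ≤ d.natAbs := by omega
      have h5 : 1 ≤ a.natAbs * c.natAbs * b.natAbs := by
        have := Nat.mul_pos (Nat.mul_pos h1 h3) h2; omega
      calc d.natAbs < 2 * d.natAbs := by omega
        _ ≤ 2 * (a.natAbs * c.natAbs * b.natAbs) * d.natAbs :=
          Nat.mul_le_mul_right _ (by omega)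
        _ = (2 : ℤ).natAbs * (a.natAbs * c.natAbs) * (b.natAbs * d.natAbs) := by
          simp only [Int.reduceAbs]; ring
    exact hd (IH _ hlt a d c b rfl ha2 had e1 e2)

/-- If a product of positive integers is a square, both are `g` times squares, `g` their gcd. -/
lemma split_square {X Y w : ℤ} (hX : 0 < X) (hY : 0 < Y) (h : X * Y = w ^ 2) :
    ∃ g u v : ℤ, 0 < g ∧ g ∣ X ∧ g ∣ Y ∧ X = g * u ^ 2 ∧ Y = g * v ^ 2 := by
  obtain ⟨g, X', Y', hg, hco, hX', hY'⟩ := Int.exists_gcd_one' (m := X) (n := Y)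
    (Int.gcd_pos_of_ne_zero_left _ hX.ne')
  have hg' : (0 : ℤ) < g := by exact_mod_cast hg
  have hX'p : 0 < X' := by nlinarith
  have hY'p : 0 < Y' := by nlinarith
  have hdvd : (g : ℤ) ∣ w := by
    rw [← Int.pow_dvd_pow_iff two_ne_zero]
    exact ⟨X' * Y', by rw [← h, hX', hY']; ring⟩
  obtain ⟨w', rfl⟩ := hdvd
  have hsq : X' * Y' = w' ^ 2 := by
    apply mul_left_cancel₀ (pow_ne_zero 2 hg'.ne')
    calc (g : ℤ) ^ 2 * (X' * Y') = X * Y := by rw [hX', hY']; ring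
      _ = _ := by rw [h]; ring
  obtain ⟨u, hu⟩ := Int.sq_of_gcd_eq_one hco hsq
  obtain ⟨v, hv⟩ := Int.sq_of_gcd_eq_one (by rwa [Int.gcd_comm]) (by rw [mul_comm]; exact hsq)
  have hu' : X' = u ^ 2 := by rcases hu with h | h <;> nlinarith
  have hv' : Y' = v ^ 2 := by rcases hv with h | h <;> nlinarith
  refine ⟨g, u, v, hg', ⟨X', ?_⟩, ⟨Y', ?_⟩, ?_, ?_⟩
  · rw [hX']; ring
  · rw [hY']; ring
  · rw [hX', hu']; ring
  · rw [hY', hv']; ring

theorem odd_case_coprime {C E P Q : ℤ} (hC : C % 2 = 1) (hco : IsCoprime C E)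
    (h1 : C ^ 2 + 9 * E ^ 2 = P ^ 2) (h2 : C ^ 2 - 16 * E ^ 2 = Q ^ 2) : E = 0 := by
  have hQ2 : Q % 2 = 1 := by
    rcases Int.emod_two_eq Q with h | h
    · obtain ⟨k, rfl⟩ : ∃ k, Q = 2 * k := ⟨Q / 2, by omega⟩
      have := odd_sq_emod_eight hC
      have : (2 * k) ^ 2 = 4 * k ^ 2 := by ring
      omega
    · exact h
  have hcoQ : IsCoprime Q (4 * E) := by
    refine IsCoprime.mul_right ?_ ?_
    · rw [show (4 : ℤ) = 2 ^ 2 by norm_num]
      exact IsCoprime.pow_right ⟨1, -(Q / 2), by omega⟩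
    · obtain ⟨r, s, hrs⟩ := (hco.pow (m := 2) (n := 2))
      refine (IsCoprime.pow_iff (m := 2) (n := 2) two_pos two_pos).mp ⟨r, 16 * r + s, ?_⟩
      linear_combination hrs - r * h2
  obtain ⟨m, n, hQmn, hE, hmn, hpar, hC2⟩ := pyth_param hQ2 hcoQ (u := C) (by linear_combination -h2)
  by_contra hE0
  wlog hm : m % 2 = 0 ∧ n % 2 = 1 generalizing m n Q
  · rcases hpar with h | ⟨h1', h2'⟩
    · exact hm h
    · exact this (Q := -Q) (by linear_combination h2) (by omega) hcoQ.neg_left n m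
        (by linear_combination -hQmn) (by linear_combination hE) hmn.symm
        (Or.inl ⟨h2', h1'⟩) (by linear_combination hC2) ⟨h2', h1'⟩
  obtain ⟨hm2, hn2⟩ := hm
  have hm0 : m ≠ 0 := by rintro rfl; apply hE0; linarith
  have key : (4 * m ^ 2 + n ^ 2) * (m ^ 2 + 4 * n ^ 2) = (2 * P) ^ 2 := by
    have hE' : m * n = 2 * E := by linarith
    linear_combination 4 * h1 - 4 * hC2 + 9 * (m * n + 2 * E) * hE'
  obtain ⟨g, r, s, hg, hgX, hgY, hr, hs⟩ := split_square (by positivity) (by positivity) key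
  have hg15 : g ∣ 15 := by
    obtain ⟨ra, rb, hrab⟩ := (hmn.pow (m := 2) (n := 2))
    rw [show (15 : ℤ) = ra * (4 * (4 * m ^ 2 + n ^ 2) - (m ^ 2 + 4 * n ^ 2))
      + rb * (4 * (m ^ 2 + 4 * n ^ 2) - (4 * m ^ 2 + n ^ 2)) by
        linear_combination (-15 : ℤ) * hrab]
    exact dvd_add ((dvd_sub (hgX.mul_left 4) hgY).mul_left ra)
      ((dvd_sub (hgY.mul_left 4) hgX).mul_left rb)
  obtain ⟨M, rfl⟩ : ∃ M, m = 2 * M := ⟨m / 2, by omega⟩
  have hn8 := odd_sq_emod_eight hn2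
  have hr2 : r % 2 = 1 := by
    rcases Int.emod_two_eq r with h | h
    · obtain ⟨k, rfl⟩ : ∃ k, r = 2 * k := ⟨r / 2, by omega⟩
      have e1 : 4 * (2 * M) ^ 2 + n ^ 2 = 16 * M ^ 2 + n ^ 2 := by ring
      have e2 : g * (2 * k) ^ 2 = 4 * (g * k ^ 2) := by ring
      omega
    · exact h
  have hr8 := odd_sq_emod_eight hr2
  have e1 : 4 * (2 * M) ^ 2 + n ^ 2 = 16 * M ^ 2 + n ^ 2 := by ring
  rcases dvd_fifteen_cases hg15 with h | h | h | h | h | h | h | h <;> subst h <;>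
    try omega
  have hs2 : s % 2 = 0 := by
    rcases Int.emod_two_eq s with h | h
    · exact h
    · have := odd_sq_emod_eight h
      have : (2 * M) ^ 2 + 4 * n ^ 2 = 4 * (M ^ 2 + n ^ 2) := by ring
      omega
  obtain ⟨s', rfl⟩ : ∃ s', s = 2 * s' := ⟨s / 2, by omega⟩
  have hM := no_concordant _ n M s' r rfl hn2 hmn.symm.of_mul_right_right
    (mul_left_cancel₀ (four_ne_zero' ℤ) (by linear_combination hs)) (by linear_combination hr)
  exact hm0 (by rw [hM]; ring)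

theorem odd_case {C E P Q : ℤ} (hC : C % 2 = 1)
    (h1 : C ^ 2 + 9 * E ^ 2 = P ^ 2) (h2 : C ^ 2 - 16 * E ^ 2 = Q ^ 2) : E = 0 := by
  obtain ⟨g, C', E', hg, hco, hC', hE'⟩ := Int.exists_gcd_one' (m := C) (n := E)
    (Int.gcd_pos_of_ne_zero_left _ (by omega))
  have hg0 : (g : ℤ) ≠ 0 := by exact_mod_cast hg.ne'
  have hP : (g : ℤ) ∣ P := by
    rw [← Int.pow_dvd_pow_iff two_ne_zero]
    exact ⟨C' ^ 2 + 9 * E' ^ 2, by rw [← h1, hC', hE']; ring⟩
  have hQ : (g : ℤ) ∣ Q := by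
    rw [← Int.pow_dvd_pow_iff two_ne_zero]
    exact ⟨C' ^ 2 - 16 * E' ^ 2, by rw [← h2, hC', hE']; ring⟩
  obtain ⟨P', rfl⟩ := hP
  obtain ⟨Q', rfl⟩ := hQ
  have hC'2 : C' % 2 = 1 := by
    rw [hC', Int.mul_emod] at hC; rcases Int.emod_two_eq C' with h | h <;> simp_all
  have e1 : C' ^ 2 + 9 * E' ^ 2 = P' ^ 2 := by
    apply mul_left_cancel₀ (pow_ne_zero 2 hg0); rw [hC', hE'] at h1; linear_combination h1
  have e2 : C' ^ 2 - 16 * E' ^ 2 = Q' ^ 2 := by
    apply mul_left_cancel₀ (pow_ne_zero 2 hg0); rw [hC', hE'] at h2; linear_combination h2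
  rw [hE', odd_case_coprime hC'2 (Int.isCoprime_iff_gcd_eq_one.mpr hco) e1 e2, zero_mul]

theorem concordant_bc {b c u v : ℤ} (hco : IsCoprime b c) (hb : b ≠ 0)
    (h1 : c ^ 2 - 4 * b ^ 2 = u ^ 2) (h2 : 4 * c ^ 2 + 9 * b ^ 2 = v ^ 2) :
    c ^ 2 = 4 * b ^ 2 := by
  rcases Int.emod_two_eq c with hc | hc
  · obtain ⟨c', rfl⟩ : ∃ c', c = 2 * c' := ⟨c / 2, by omega⟩
    have hb2 : b % 2 = 1 := by
      rcases Int.emod_two_eq b with h | h
      · exfalso
        obtain ⟨r, s, hrs⟩ := hco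
        have : (r * b + s * (2 * c')) % 2 = 0 := by simp [Int.add_emod, Int.mul_emod, h]
        omega
      · exact h
    have hb8 := odd_sq_emod_eight hb2
    have e4 : (2 * c') ^ 2 = 4 * c' ^ 2 := by ring
    have hu : u % 2 = 0 := by
      rcases Int.emod_two_eq u with h | h
      · exact h
      · have := odd_sq_emod_eight h; omega
    obtain ⟨u', rfl⟩ : ∃ u', u = 2 * u' := ⟨u / 2, by omega⟩
    have hv : v % 2 = 1 := by
      rcases Int.emod_two_eq v with h | h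
      · obtain ⟨k, rfl⟩ : ∃ k, v = 2 * k := ⟨v / 2, by omega⟩
        have : (2 * k) ^ 2 = 4 * k ^ 2 := by ring
        omega
      · exact h
    have h1' : c' ^ 2 - b ^ 2 = u' ^ 2 :=
      mul_left_cancel₀ (four_ne_zero' ℤ) (by linear_combination h1)
    have := odd_case (C := v) (E := u') (P := 5 * c') (Q := 5 * b) hv
      (by linear_combination -h2 - 9 * h1') (by linear_combination -h2 + 16 * h1')
    subst this
    linear_combination h1
  · exfalso
    have hc8 := odd_sq_emod_eight hc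
    have hb2 : b % 2 = 0 := by
      rcases Int.emod_two_eq b with h | h
      · exact h
      · have := odd_sq_emod_eight h
        rcases Int.emod_two_eq u with hu | hu
        · obtain ⟨k, rfl⟩ : ∃ k, u = 2 * k := ⟨u / 2, by omega⟩
          have : (2 * k) ^ 2 = 4 * k ^ 2 := by ring
          omega
        · have := odd_sq_emod_eight hu; omega
    obtain ⟨e, rfl⟩ : ∃ e, b = 2 * e := ⟨b / 2, by omega⟩
    have hv : v % 2 = 0 := by
      rcases Int.emod_two_eq v with h | h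
      · exact h
      · have := odd_sq_emod_eight h
        have : 4 * c ^ 2 + 9 * (2 * e) ^ 2 = 4 * (c ^ 2 + 9 * e ^ 2) := by ring
        omega
    obtain ⟨v', rfl⟩ : ∃ v', v = 2 * v' := ⟨v / 2, by omega⟩
    have := odd_case (C := c) (E := e) (P := v') (Q := u) hc
      (mul_left_cancel₀ (four_ne_zero' ℤ) (by linear_combination h2))
      (by linear_combination h1)
    exact hb (by rw [this]; ring)

theorem product_square {b c w : ℤ} (hco : IsCoprime b c) (hb : b ≠ 0) (h3 : ¬ (3 : ℤ) ∣ c)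
    (h : (c ^ 2 - 4 * b ^ 2) * (4 * c ^ 2 + 9 * b ^ 2) = w ^ 2) : c ^ 2 = 4 * b ^ 2 := by
  by_contra hne
  have hY : (0 : ℤ) < 4 * c ^ 2 + 9 * b ^ 2 := by positivity
  have hX : (0 : ℤ) < c ^ 2 - 4 * b ^ 2 := by
    rcases lt_trichotomy (c ^ 2 - 4 * b ^ 2) 0 with h' | h' | h'
    · nlinarith [mul_neg_of_neg_of_pos h' hY]
    · exact absurd (by linarith) hne
    · exact h'
  obtain ⟨g, r, s, hg, hgX, hgY, hr, hs⟩ := split_square hX hY h
  have hg25 : g ∣ 25 := by
    obtain ⟨ra, rb, hrab⟩ := (hco.pow (m := 2) (n := 2))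
    rw [show (25 : ℤ) = ra * ((4 * c ^ 2 + 9 * b ^ 2) - 4 * (c ^ 2 - 4 * b ^ 2))
      + rb * (4 * (4 * c ^ 2 + 9 * b ^ 2) + 9 * (c ^ 2 - 4 * b ^ 2)) by
        linear_combination (-25 : ℤ) * hrab]
    exact dvd_add ((dvd_sub hgY (hgX.mul_left 4)).mul_left ra)
      ((dvd_add (hgY.mul_left 4) (hgX.mul_left 9)).mul_left rb)
  have hg' : g = 1 ∨ g = 5 ∨ g = 25 := by
    have : g ≤ 25 := Int.le_of_dvd (by norm_num) hg25
    interval_cases g <;> simp_all
  rcases hg' with rfl | rfl | rfl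
  · exact hne (concordant_bc (u := r) (v := s) hco hb (by linarith) (by linarith))
  · have key : ∀ x : ℤ, x ^ 2 % 3 = 0 ∨ x ^ 2 % 3 = 1 := fun x => by
      rw [sq, Int.mul_emod]
      rcases (by omega : x % 3 = 0 ∨ x % 3 = 1 ∨ x % 3 = 2) with h | h | h <;> simp [h]
    have hc3 : c ^ 2 % 3 = 1 := by
      rw [sq, Int.mul_emod]
      rcases (by omega : c % 3 = 1 ∨ c % 3 = 2) with h | h <;> simp [h]
    rcases key s with h' | h' <;> omega
  · exact hne (concordant_bc (u := 5 * r) (v := 5 * s) hco hb (by linarith) (by linarith))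

/-- The positively oriented homogeneous quartic. -/
theorem pos_case {p q A B : ℤ} (hco : IsCoprime p q) (hp : p ≠ 0) (hq : q ≠ 0)
    (hA : p ^ 2 - 11 * p * q - q ^ 2 = A ^ 2) (hB : p ^ 2 + p * q - q ^ 2 = B ^ 2) :
    (p = 2 ∧ q = -1) ∨ (p = -2 ∧ q = 1) := by
  have hAB : IsCoprime A B := by
    by_contra hnc
    obtain ⟨l, hl, hlA, hlB⟩ := Nat.Prime.not_coprime_iff_dvd.mp
      (fun h => hnc (Int.isCoprime_iff_nat_coprime.mpr h))
    have hlA' : (l : ℤ) ∣ A := Int.natCast_dvd.mpr hlA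
    have hlB' : (l : ℤ) ∣ B := Int.natCast_dvd.mpr hlB
    have h12 : (l : ℤ) ∣ 12 * (p * q) := by
      rw [show 12 * (p * q) = B * B - A * A by linear_combination hB - hA]
      exact dvd_sub (hlB'.mul_right _) (hlA'.mul_right _)
    have hpl : Prime (l : ℤ) := Nat.prime_iff_prime_int.mp hl
    have hB2 : (l : ℤ) ∣ p ^ 2 + p * q - q ^ 2 := by rw [hB, sq]; exact hlB'.mul_right _
    rcases hpl.dvd_or_dvd h12 with h | h
    · have hl' : l ∣ 12 := by exact_mod_cast h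
      have hle : l ≤ 12 := Nat.le_of_dvd (by norm_num) hl'
      have h2 := hl.two_le
      obtain ⟨r, s, hrs⟩ := hco
      interval_cases l <;> (try norm_num at hl) <;> (try norm_num at hl')
      · -- two never divides a value of the form
        have e := (ZMod.intCast_zmod_eq_zero_iff_dvd _ 2).mpr hB2
        have f : ((r * p + s * q : ℤ) : ZMod 2) = 1 := by rw [hrs]; simp
        push_cast at e f
        revert e f
        generalize (p : ZMod 2) = x, (q : ZMod 2) = y, (r : ZMod 2) = i, (s : ZMod 2) = j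
        revert x y i j; decide
      · have e := (ZMod.intCast_zmod_eq_zero_iff_dvd _ 3).mpr hB2
        have f : ((r * p + s * q : ℤ) : ZMod 3) = 1 := by rw [hrs]; simp
        push_cast at e f
        revert e f
        generalize (p : ZMod 3) = x, (q : ZMod 3) = y, (r : ZMod 3) = i, (s : ZMod 3) = j
        revert x y i j; decide
    · rcases hpl.dvd_or_dvd h with h | h
      · have : (l : ℤ) ∣ q ^ 2 := by
          rw [show q ^ 2 = p * (p + q) - (p ^ 2 + p * q - q ^ 2) by ring]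
          exact dvd_sub (h.mul_right _) hB2
        exact hpl.not_isUnit (hco.isUnit_of_dvd' h (hpl.dvd_of_dvd_pow this))
      · have : (l : ℤ) ∣ p ^ 2 := by
          rw [show p ^ 2 = (p ^ 2 + p * q - q ^ 2) - q * (p - q) by ring]
          exact dvd_sub hB2 (h.mul_right _)
        exact hpl.not_isUnit (hco.isUnit_of_dvd' (hpl.dvd_of_dvd_pow this) h)
  have hparity : 2 ∣ B - A := by
    have : (2 : ℤ) ∣ (B - A) ^ 2 :=
      ⟨p ^ 2 - 5 * (p * q) - q ^ 2 - A * B, by linear_combination -hA - hB⟩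
    exact (Int.prime_two).dvd_of_dvd_pow this
  obtain ⟨X, hX⟩ := hparity
  have hY : B = X + (X + A) := by linarith
  have hXY : X * (X + A) = 3 * (p * q) := by
    have : 4 * (X * (X + A)) = 4 * (3 * (p * q)) := by
      have hBA : B ^ 2 - A ^ 2 = 12 * (p * q) := by linear_combination hA - hB
      subst hY; linear_combination hBA
    linarith
  have hco' : IsCoprime X (X + A) := by
    obtain ⟨r, s, hrs⟩ := hAB
    refine ⟨s - r, s + r, ?_⟩
    linear_combination hrs + (-s) * hY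
  have h3 : (3 : ℤ) ∣ X * (X + A) := ⟨_, hXY⟩
  -- arrange the factor three in the first slot
  obtain ⟨U, V, hUV, hcoUV, hBUV⟩ :
      ∃ U V : ℤ, U * V = p * q ∧ IsCoprime (3 * U) V ∧ B = 3 * U + V := by
    rcases (Int.prime_three).dvd_or_dvd h3 with ⟨U, hU⟩ | ⟨U, hU⟩
    · refine ⟨U, X + A, ?_, hU ▸ hco', by rw [hY, hU]⟩
      apply mul_left_cancel₀ (three_ne_zero' ℤ); rw [← hXY]; conv_rhs => rw [hU]
      rw [hU]; ring
    · refine ⟨U, X, ?_, hU ▸ hco'.symm, by rw [hY, hU]; ring⟩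
      apply mul_left_cancel₀ (three_ne_zero' ℤ); rw [← hXY, hU]; ring
  obtain ⟨a, b, c, d, rfl, rfl, rfl, rfl, had, hbc⟩ :=
    four_factor hp hUV hcoUV.of_mul_left_right hco
  subst hBUV
  have hb0 : b ≠ 0 := left_ne_zero_of_mul hq
  have hd0 : d ≠ 0 := right_ne_zero_of_mul hq
  have h3c : ¬ (3 : ℤ) ∣ c := fun h => Int.prime_three.not_isUnit
    (hcoUV.isUnit_of_dvd' (dvd_mul_right 3 _) (h.mul_right d))
  set T := 2 * a * (c ^ 2 - 9 * b ^ 2) - 5 * b * c * d with hT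
  have hT2 : T ^ 2 = d ^ 2 * ((c ^ 2 - 4 * b ^ 2) * (4 * c ^ 2 + 9 * b ^ 2)) := by
    rw [hT]; linear_combination 4 * (c ^ 2 - 9 * b ^ 2) * hB
  obtain ⟨w, hw⟩ : d ∣ T := (Int.pow_dvd_pow_iff two_ne_zero).mp ⟨_, hT2⟩
  have hcb : c ^ 2 = 4 * b ^ 2 := by
    refine product_square hbc hb0 h3c (w := w) ?_
    apply mul_left_cancel₀ (pow_ne_zero 2 hd0)
    rw [← hT2, hw]; ring
  -- coprimality forces b = ±1, c = ±2
  have hb1 : IsUnit b := by
    refine hbc.isUnit_of_dvd' dvd_rfl ?_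
    exact (Int.pow_dvd_pow_iff two_ne_zero).mp ⟨4, by rw [hcb]; ring⟩
  have hc2 : c = 2 * b ∨ c = -(2 * b) := sq_eq_sq_iff_eq_or_eq_neg.mp (by rw [hcb]; ring)
  have hb : b ^ 2 = 1 := by rcases Int.isUnit_iff.mp hb1 with rfl | rfl <;> norm_num
  obtain ⟨σ, hσ, hσ'⟩ : ∃ σ : ℤ, b * c = 2 * σ ∧ σ ^ 2 = 1 := by
    rcases hc2 with rfl | rfl
    · exact ⟨1, by linear_combination 2 * hb, by norm_num⟩
    · exact ⟨-1, by linear_combination (-2) * hb, by norm_num⟩
  have hlin : a + σ * d = 0 := by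
    have : 5 * (a + σ * d) ^ 2 = 0 := by
      linear_combination -hB + a ^ 2 * hcb - d ^ 2 * hcb - 5 * (a ^ 2 + d ^ 2) * hb
        - 5 * a * d * hσ + 5 * d ^ 2 * hσ'
    exact pow_eq_zero_iff two_ne_zero |>.mp ((mul_eq_zero.mp this).resolve_left (by norm_num))
  have hd1 : IsUnit d := had.isUnit_of_dvd' ⟨-σ, by linear_combination hlin⟩ dvd_rfl
  have hd : d ^ 2 = 1 := by rcases Int.isUnit_iff.mp hd1 with rfl | rfl <;> norm_num
  have hpq : (a * c) * (b * d) = -2 := by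
    linear_combination a * d * hσ + 2 * σ * d * hlin - 2 * d ^ 2 * hσ' - 2 * hd
  have hdvd : a * c ∣ 2 := ⟨-(b * d), by linear_combination hpq⟩
  have hle : (a * c).natAbs ≤ 2 := Nat.le_of_dvd (by norm_num) (Int.natAbs_dvd_natAbs.mpr hdvd)
  generalize a * c = P at *
  generalize b * d = R at *
  have hP1 : -2 ≤ P := by omega
  have hP2 : P ≤ 2 := by omega
  interval_cases P <;> (try omega)
  all_goals exfalso
  all_goals
    have hR : R = -2 ∨ R = 2 := by
      clear * - hpq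
      omega
    rcases hR with rfl | rfl <;> linarith [sq_nonneg (3 * (a * b) + c * d)]

/-- Rational points on the quartic: only `z = 1/2` and `z = -2`. -/
theorem quartic_points {z w : ℚ} (hz : z ≠ 0)
    (h : (z ^ 2 - 11 * z - 1) * (z ^ 2 + z - 1) = w ^ 2) : z = 1 / 2 ∨ z = -2 := by
  obtain ⟨p, q, hq0, hco, rfl⟩ : ∃ p q : ℤ, 0 < q ∧ IsCoprime p q ∧ z = p / q :=
    ⟨z.num, z.den, by exact_mod_cast z.pos, z.isCoprime_num_den, (Rat.num_div_den z).symm⟩
  have hp0 : p ≠ 0 := by rintro rfl; simp at hz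
  have hqQ : (q : ℚ) ≠ 0 := by exact_mod_cast hq0.ne'
  set F1 := p ^ 2 - 11 * p * q - q ^ 2 with hF1
  set F2 := p ^ 2 + p * q - q ^ 2 with hF2
  have hsq : IsSquare ((F1 * F2 : ℤ) : ℚ) := by
    refine ⟨w * q ^ 2, ?_⟩
    rw [← sq, hF1, hF2]
    field_simp at h
    push_cast
    linear_combination h
  rw [Rat.isSquare_intCast_iff] at hsq
  obtain ⟨W, hW⟩ := hsq
  have hne : ∀ x y : ℤ, y ≠ 0 → x ^ 2 + x * y - y ^ 2 ≠ 0 := by
    intro x y hy h0
    have h5 : IsSquare ((5 : ℤ) : ℚ) := ⟨(2 * x + y) / y, by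
      have : ((x : ℚ) ^ 2 + x * y - y ^ 2) = 0 := by exact_mod_cast h0
      have hy' : (y : ℚ) ≠ 0 := by exact_mod_cast hy
      field_simp; linear_combination (-4 : ℚ) * this⟩
    rw [Rat.isSquare_intCast_iff] at h5
    obtain ⟨r, hr⟩ := h5
    have : r < 3 := by nlinarith
    have : -3 < r := by nlinarith
    interval_cases r <;> norm_num at hr
  have hF2ne : F2 ≠ 0 := hne p q hq0.ne'
  have hF1ne : F1 ≠ 0 := by
    intro h0
    have h5 : IsSquare ((125 : ℤ) : ℚ) := ⟨(2 * p - 11 * q) / q, by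
      have : ((p : ℚ) ^ 2 - 11 * p * q - q ^ 2) = 0 := by exact_mod_cast h0
      field_simp; linear_combination (-4 : ℚ) * this⟩
    rw [Rat.isSquare_intCast_iff] at h5
    obtain ⟨r, hr⟩ := h5
    have : r < 12 := by nlinarith
    have : -12 < r := by nlinarith
    interval_cases r <;> norm_num at hr
  have hcop : IsCoprime F1 F2 → ∃ A B : ℤ,
      (F1 = A ^ 2 ∧ F2 = B ^ 2) ∨ (F1 = -(A ^ 2) ∧ F2 = -(B ^ 2)) := by
    intro hc
    obtain ⟨A, hA⟩ := Int.sq_of_isCoprime hc (c := W) (by rw [hW]; ring)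
    obtain ⟨B, hB⟩ := Int.sq_of_isCoprime hc.symm (c := W) (by rw [mul_comm, hW]; ring)
    refine ⟨A, B, ?_⟩
    have hpos : 0 ≤ F1 * F2 := by rw [hW]; exact mul_self_nonneg W
    rcases hA with hA | hA <;> rcases hB with hB | hB
    · exact Or.inl ⟨hA, hB⟩
    · exfalso
      have hA0 : 0 < A ^ 2 := by rcases (sq_nonneg A).lt_or_eq with h | h <;> [exact h; omega]
      have hB0 : 0 < B ^ 2 := by rcases (sq_nonneg B).lt_or_eq with h | h <;> [exact h; omega]
      nlinarith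
    · exfalso
      have hA0 : 0 < A ^ 2 := by rcases (sq_nonneg A).lt_or_eq with h | h <;> [exact h; omega]
      have hB0 : 0 < B ^ 2 := by rcases (sq_nonneg B).lt_or_eq with h | h <;> [exact h; omega]
      nlinarith
    · exact Or.inr ⟨hA, hB⟩
  have hc12 : IsCoprime F1 F2 := by
    by_contra hnc
    obtain ⟨l, hl, hlA, hlB⟩ := Nat.Prime.not_coprime_iff_dvd.mp
      (fun h => hnc (Int.isCoprime_iff_nat_coprime.mpr h))
    have hlA' : (l : ℤ) ∣ F1 := Int.natCast_dvd.mpr hlA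
    have hlB' : (l : ℤ) ∣ F2 := Int.natCast_dvd.mpr hlB
    have h12 : (l : ℤ) ∣ 12 * (p * q) := by
      rw [show 12 * (p * q) = F2 - F1 by rw [hF1, hF2]; ring]
      exact dvd_sub hlB' hlA'
    have hpl : Prime (l : ℤ) := Nat.prime_iff_prime_int.mp hl
    have hB2 : (l : ℤ) ∣ p ^ 2 + p * q - q ^ 2 := hlB'
    rcases hpl.dvd_or_dvd h12 with h | h
    · have hl' : l ∣ 12 := by exact_mod_cast h
      have hle : l ≤ 12 := Nat.le_of_dvd (by norm_num) hl'
      have h2 := hl.two_le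
      obtain ⟨r, s, hrs⟩ := hco
      interval_cases l <;> (try norm_num at hl) <;> (try norm_num at hl')
      · have e := (ZMod.intCast_zmod_eq_zero_iff_dvd _ 2).mpr hB2
        have f : ((r * p + s * q : ℤ) : ZMod 2) = 1 := by rw [hrs]; simp
        push_cast at e f
        revert e f
        generalize (p : ZMod 2) = x, (q : ZMod 2) = y, (r : ZMod 2) = i, (s : ZMod 2) = j
        revert x y i j; decide
      · have e := (ZMod.intCast_zmod_eq_zero_iff_dvd _ 3).mpr hB2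
        have f : ((r * p + s * q : ℤ) : ZMod 3) = 1 := by rw [hrs]; simp
        push_cast at e f
        revert e f
        generalize (p : ZMod 3) = x, (q : ZMod 3) = y, (r : ZMod 3) = i, (s : ZMod 3) = j
        revert x y i j; decide
    · rcases hpl.dvd_or_dvd h with h | h
      · have : (l : ℤ) ∣ q ^ 2 := by
          rw [show q ^ 2 = p * (p + q) - (p ^ 2 + p * q - q ^ 2) by ring]
          exact dvd_sub (h.mul_right _) hB2
        exact hpl.not_isUnit (hco.isUnit_of_dvd' h (hpl.dvd_of_dvd_pow this))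
      · have : (l : ℤ) ∣ p ^ 2 := by
          rw [show p ^ 2 = (p ^ 2 + p * q - q ^ 2) - q * (p - q) by ring]
          exact dvd_sub hB2 (h.mul_right _)
        exact hpl.not_isUnit (hco.isUnit_of_dvd' (hpl.dvd_of_dvd_pow this) h)
  obtain ⟨A, B, h' | h'⟩ := hcop hc12
  · rcases pos_case hco hp0 hq0.ne' h'.1 h'.2 with ⟨rfl, rfl⟩ | ⟨rfl, rfl⟩
    · omega
    · right; norm_num
  · rcases pos_case (p := q) (q := -p) hco.symm.neg_right hq0.ne' (neg_ne_zero.mpr hp0)
      (A := A) (B := B) (by linear_combination -h'.1) (by linear_combination -h'.2) with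
      ⟨rfl, hp⟩ | ⟨rfl, hp⟩
    · obtain rfl : p = 1 := by omega
      left; norm_num
    · omega

end FLTAgent.X015
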