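/-
A semistable curve over the rationals cannot have Galois-stable lines mod 3 and mod 5.
-/
import Mathlib.FieldTheory.Galois.Infinite
import Mathlib.FieldTheory.Perfect
import Mathlib.FieldTheory.IsSepClosed
import Mathlib.FieldTheory.Normal.Basic
import Mathlib.LinearAlgebra.FiniteDimensional.Basic
import Fermat.Prelude.Def_FLTPrelim_GaloisRep
import Fermat.Prelude.Def_FLTPrelim_ModularRep
import Fermat.Agent.X015.Diophantine
import Fermat.Agent.X015.Torsion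

set_option autoImplicit false

open WeierstrassCurve Polynomial
open WeierstrassCurve.Affine (Point)
open scoped WeierstrassCurve.Affine

namespace FLTAgent.X015

local notation "Qbar" => AlgebraicClosure ℚ

lemma mem_rat_of_fixed {a : Qbar} (h : ∀ σ : Qbar ≃ₐ[ℚ] Qbar, σ a = a) :
    ∃ q : ℚ, algebraMap ℚ Qbar q = a := by
  have : Algebra.IsAlgebraic ℚ Qbar := AlgebraicClosure.isAlgebraic ℚ
  have : IsAlgClosure ℚ Qbar := ⟨inferInstance, inferInstance⟩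
  have : Normal ℚ Qbar := IsAlgClosure.normal ℚ Qbar
  have : IsGalois ℚ Qbar := ⟨⟩
  exact (InfiniteGalois.mem_range_algebraMap_iff_fixed a).mpr h

variable (W' : Affine ℚ)

lemma xCoord_smul (σ : Qbar ≃ₐ[ℚ] Qbar) (P : (W'⁄Qbar).Point) :
    xCoord (σ • P) = σ (xCoord P) := by
  rcases P with _ | ⟨x, y, h⟩
  · exact (map_zero σ).symm
  · rfl

/-- A stable proper nonzero submodule of a small torsion module is a line. -/
lemma exists_stable_line {p : ℕ} [Fact p.Prime]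
    {N : Submodule (ZMod p) (Submodule.torsionBy ℤ (W'⁄Qbar).Point p)}
    (hst : Affine.Point.IsGaloisStable ℚ N) (hbot : N ≠ ⊥) (htop : N ≠ ⊤)
    (hfin : Finite (Submodule.torsionBy ℤ (W'⁄Qbar).Point p))
    (hcard : Nat.card (Submodule.torsionBy ℤ (W'⁄Qbar).Point p) < p ^ 3) :
    ∃ P : (W'⁄Qbar).Point, P ≠ 0 ∧ p • P = 0 ∧
      ∀ σ : Qbar ≃ₐ[ℚ] Qbar, ∃ k : ℕ, k < p ∧ σ • P = k • P := by
  have hMF : Module.Finite (ZMod p) (Submodule.torsionBy ℤ (W'⁄Qbar).Point p) :=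
    Module.Finite.of_finite
  have hpow := Module.natCard_eq_pow_finrank (K := ZMod p)
    (V := Submodule.torsionBy ℤ (W'⁄Qbar).Point p)
  rw [Nat.card_zmod] at hpow
  rw [hpow] at hcard
  have h2 := (Nat.pow_lt_pow_iff_right (Fact.out : p.Prime).one_lt).mp hcard
  have h1 := Submodule.finrank_lt htop
  obtain ⟨v, hvN, hv⟩ := Submodule.exists_mem_ne_zero_of_ne_bot hbot
  have hN0 : 0 < Module.finrank (ZMod p) N :=
    Module.finrank_pos_iff_exists_ne_zero.mpr ⟨⟨v, hvN⟩, fun e => hv (congrArg Subtype.val e)⟩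
  have hN1 : Module.finrank (ZMod p) N = 1 := by omega
  refine ⟨v, fun e => hv (Subtype.ext e), ?_, fun σ => ?_⟩
  · exact (natCast_zsmul _ _).symm.trans ((Submodule.mem_torsionBy_iff _ _).mp v.2)
  · obtain ⟨c, hc⟩ := exists_smul_eq_of_finrank_eq_one hN1
      (x := (⟨v, hvN⟩ : N)) (fun e => hv (congrArg Subtype.val e)) ⟨σ • v, hst σ v hvN⟩
    refine ⟨c.val, ZMod.val_lt c, ?_⟩
    have h := congrArg Subtype.val hc
    simp only [Submodule.coe_smul] at h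
    rw [← ZMod.natCast_zmod_val c, Nat.cast_smul_eq_nsmul] at h
    have h' := congrArg Subtype.val h
    exact h'.symm.trans (by simp)

lemma torsion_card (p : ℕ) (f : Qbar[X]) (hf : f ≠ 0) {d : ℕ} (hd : f.natDegree ≤ d)
    (h : ∀ P : (W'⁄Qbar).Point, p • P = 0 → P ≠ 0 → f.eval (xCoord P) = 0) :
    Finite (Submodule.torsionBy ℤ (W'⁄Qbar).Point p) ∧
      Nat.card (Submodule.torsionBy ℤ (W'⁄Qbar).Point p) ≤ 2 * d + 1 := by
  obtain ⟨h1, h2⟩ := card_bound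
    (Submodule.torsionBy ℤ (W'⁄Qbar).Point p).toAddSubgroup f hf (fun P hP hP0 => h P (by
      simpa using (Submodule.mem_torsionBy_iff _ _).mp hP) hP0)
  exact ⟨h1, h2.trans (by omega)⟩

/-- The rational invariants of a pair of stable lines. -/
theorem invariants_of_lines (hΔ : W'.Δ ≠ 0) (hc : W'.c₄ ≠ 0)
    {P : (W'⁄Qbar).Point} (hP : P ≠ 0) (hP3 : (3 : ℕ) • P = 0)
    (hPσ : ∀ σ : Qbar ≃ₐ[ℚ] Qbar, ∃ k : ℕ, k < 3 ∧ σ • P = k • P)
    {Q : (W'⁄Qbar).Point} (hQ : Q ≠ 0) (hQ5 : (5 : ℕ) • Q = 0)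
    (hQσ : ∀ σ : Qbar ≃ₐ[ℚ] Qbar, ∃ k : ℕ, k < 5 ∧ σ • Q = k • Q) :
    ∃ t R : ℚ, t ≠ 0 ∧ W'.c₄ ^ 3 * t = W'.Δ * ((t + 27) * (t + 3) ^ 3) ∧
      t ^ 2 * R ^ 6 - t ^ 2 * R ^ 5 - 5 * t * R ^ 3 - 9 * R - 1 = 0 := by
  have ec4 : WeierstrassCurve.c₄ (W'⁄Qbar) = algebraMap ℚ Qbar W'.c₄ :=
    WeierstrassCurve.map_c₄ _ _
  have eΔ : WeierstrassCurve.Δ (W'⁄Qbar) = algebraMap ℚ Qbar W'.Δ :=
    WeierstrassCurve.map_Δ _ _
  have eb2 : WeierstrassCurve.b₂ (W'⁄Qbar) = algebraMap ℚ Qbar W'.b₂ :=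
    WeierstrassCurve.map_b₂ _ _
  have eb4 : WeierstrassCurve.b₄ (W'⁄Qbar) = algebraMap ℚ Qbar W'.b₄ :=
    WeierstrassCurve.map_b₄ _ _
  have hΔ' : WeierstrassCurve.Δ (W'⁄Qbar) ≠ 0 := by
    rw [eΔ]; exact (map_ne_zero_iff _ (algebraMap ℚ Qbar).injective).mpr hΔ
  have hc' : WeierstrassCurve.c₄ (W'⁄Qbar) ≠ 0 := by
    rw [ec4]; exact (map_ne_zero_iff _ (algebraMap ℚ Qbar).injective).mpr hc
  have hsmul0 : ∀ (σ : Qbar ≃ₐ[ℚ] Qbar) (S : (W'⁄Qbar).Point), σ • S = 0 → S = 0 := by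
    intro σ S h; exact smul_left_cancel σ (h.trans (smul_zero (A := (W'⁄Qbar).Point) σ).symm)
  -- the line mod 3
  have hx0 : ∀ σ : Qbar ≃ₐ[ℚ] Qbar, σ (xCoord P) = xCoord P := by
    intro σ
    obtain ⟨k, hk, e⟩ := hPσ σ
    rw [← xCoord_smul W', e]
    interval_cases k
    · exact absurd (hsmul0 σ P (by rw [e, zero_nsmul])) hP
    · rw [one_nsmul]
    · rw [show (2 : ℕ) • P = -P from eq_neg_of_add_eq_zero_left (by rw [← succ_nsmul]; exact hP3),
        xCoord_neg]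
  have h8 := three_torsion hP3 hP
  have htfix : ∀ σ : Qbar ≃ₐ[ℚ] Qbar,
      σ (tInv (W'⁄Qbar) (xCoord P)) = tInv (W'⁄Qbar) (xCoord P) := by
    intro σ
    simp only [tInv, shB2, shB4, eb2, eb4, map_sub, map_div₀, map_pow, map_add, map_mul,
      map_ofNat, hx0, AlgEquiv.commutes]
  obtain ⟨t, ht⟩ := mem_rat_of_fixed htfix
  -- the line mod 5
  obtain ⟨x, y, hxy, hQx, hQQx, hA2, hA3, hrel⟩ := five_torsion hQ5 hQ
  obtain ⟨x2, hx2⟩ : ∃ x2, x2 = x - tanA2 (W'⁄Qbar) x y := ⟨_, rfl⟩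
  rw [← hx2] at hQQx
  obtain ⟨r, hr⟩ : ∃ r, r = (xCoord P - x) * (xCoord P - x2) / (x - x2) ^ 2 := ⟨_, rfl⟩
  have hRfix : ∀ σ : Qbar ≃ₐ[ℚ] Qbar, σ r = r := by
    intro σ
    obtain ⟨k, hk, e⟩ := hQσ σ
    have e2 : σ • (Q + Q) = k • (Q + Q) :=
      (smul_add σ Q Q).trans (by rw [e]; exact (nsmul_add Q Q k).symm)
    have s1 : σ x = xCoord (k • Q) := by rw [← hQx, ← xCoord_smul W', e]
    have s2 : σ x2 = xCoord (k • (Q + Q)) := by rw [← hQQx, ← xCoord_smul W', e2]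
    have hcases : (σ x = x ∧ σ x2 = x2) ∨ (σ x = x2 ∧ σ x2 = x) := by
      interval_cases k
      · exact absurd (hsmul0 σ Q (by rw [e, zero_nsmul])) hQ
      · left; rw [s1, s2, one_nsmul, one_nsmul]; exact ⟨hQx, hQQx⟩
      · right
        rw [s1, s2, two_nsmul Q, show (2 : ℕ) • (Q + Q) = -Q from
          eq_neg_of_add_eq_zero_left (by rw [← hQ5]; abel), xCoord_neg]
        exact ⟨hQQx, hQx⟩
      · right
        rw [s1, s2, show (3 : ℕ) • Q = -(Q + Q) from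
          eq_neg_of_add_eq_zero_left (by rw [← hQ5]; abel),
          show (3 : ℕ) • (Q + Q) = Q by
            rw [show (3 : ℕ) • (Q + Q) = (5 : ℕ) • Q + Q by abel, hQ5, zero_add], xCoord_neg]
        exact ⟨hQQx, hQx⟩
      · left
        rw [s1, s2, show (4 : ℕ) • Q = -Q from eq_neg_of_add_eq_zero_left (by rw [← hQ5]; abel),
          show (4 : ℕ) • (Q + Q) = -(Q + Q) from eq_neg_of_add_eq_zero_left (by
            rw [show (4 : ℕ) • (Q + Q) + (Q + Q) = (5 : ℕ) • Q + (5 : ℕ) • Q by abel, hQ5,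
              add_zero]), xCoord_neg, xCoord_neg]
        exact ⟨hQx, hQQx⟩
    rcases hcases with ⟨a, b⟩ | ⟨a, b⟩
    · rw [hr, map_div₀, map_mul, map_pow, map_sub, map_sub, map_sub, hx0, a, b]
    · rw [hr, map_div₀, map_mul, map_pow, map_sub, map_sub, map_sub, hx0, a, b, sub_sq_comm x2,
        mul_comm]
  obtain ⟨R, hR⟩ := mem_rat_of_fixed hRfix
  have E := level_fifteen (t := algebraMap ℚ Qbar t) (R := algebraMap ℚ Qbar R) hΔ' hc' hA2 hA3
    tan_sh2 (tan_sh4 hA3) (tan_sh6 hxy) (tan_sh8 hxy hA3) hrel h8 ht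
    (by rw [hR, hr, hx2, sub_sub_cancel, ← sub_add])
  have J := tInv_j h8 hΔ' hc'
  rw [← ht, ec4, eΔ] at J
  refine ⟨t, R, ?_, ?_, ?_⟩
  · rintro rfl
    exact tInv_ne_zero h8 hΔ' hc' (by rw [← ht, map_zero])
  · apply (algebraMap ℚ Qbar).injective
    simp only [map_mul, map_pow, map_add, map_ofNat]
    exact J
  · apply (algebraMap ℚ Qbar).injective
    simp only [map_mul, map_pow, map_sub, map_ofNat, map_one, map_zero]
    exact E

lemma t_values {t R : ℚ} (ht : t ≠ 0)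
    (h : t ^ 2 * R ^ 6 - t ^ 2 * R ^ 5 - 5 * t * R ^ 3 - 9 * R - 1 = 0) :
    t = -2 ∨ t = -32 ∨ t = -729 / 2 ∨ t = -729 / 32 := by
  have hR : R ≠ 0 := by rintro rfl; norm_num at h
  have hz : t * R ^ 3 ≠ 0 := mul_ne_zero ht (pow_ne_zero 3 hR)
  have hu : (t * R ^ 2) * ((t * R ^ 3) ^ 2 - 5 * (t * R ^ 3) - 1) =
      (t * R ^ 3) * (t * R ^ 2) ^ 2 + 9 * (t * R ^ 3) := by
    linear_combination (t * R ^ 2) * h
  have ht3 : t * (t * R ^ 3) ^ 2 = (t * R ^ 2) ^ 3 := by ring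
  rcases quartic_points hz (quartic_of_equation h) with hv | hv <;>
    (rw [hv] at hu ht3
     have hf : (t * R ^ 2 + 2) * (2 * (t * R ^ 2) + 9) = 0 := by
       first
       | linear_combination (4 : ℚ) * hu
       | linear_combination (-4 : ℚ) * hu
       | linear_combination hu
     rcases mul_eq_zero.mp hf with h' | h')
  · rw [show t * R ^ 2 = -2 by linarith] at ht3
    right; left; linarith
  · rw [show t * R ^ 2 = -9 / 2 by linarith] at ht3
    right; right; left; linarith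
  · rw [show t * R ^ 2 = -2 by linarith] at ht3
    left; linarith
  · rw [show t * R ^ 2 = -9 / 2 by linarith] at ht3
    right; right; right; linarith

lemma no_five_divisible {W : WeierstrassCurve ℤ} (hW : W.IsSemistableModel) {A B : ℤ} {k : ℕ}
    (hk : 1 ≤ k ∧ k ≤ 2) (hA : ¬ (5 : ℤ) ∣ A) (hB : ¬ (5 : ℤ) ∣ B)
    (h : A * W.c₄ ^ 3 = 5 ^ k * B * W.Δ) : False := by
  have hp : Prime (5 : ℤ) := by norm_num
  have h5 : (5 : ℤ) ∣ A * W.c₄ ^ 3 := by
    rw [h, mul_assoc]; exact (dvd_pow_self _ (by omega)).mul_right _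
  have hc : (5 : ℤ) ∣ W.c₄ :=
    hp.dvd_of_dvd_pow ((hp.dvd_or_dvd h5).resolve_left hA)
  have hΔ : (5 : ℤ) ∣ W.Δ := by
    have h125 : (5 : ℤ) ^ 3 ∣ 5 ^ k * (B * W.Δ) := by
      rw [← mul_assoc, ← h]; exact (pow_dvd_pow_of_dvd hc 3).mul_left A
    rw [show (3 : ℕ) = k + (3 - k) by omega, pow_add] at h125
    have := (dvd_pow_self (5 : ℤ) (show 3 - k ≠ 0 by omega)).trans
      ((mul_dvd_mul_iff_left (pow_ne_zero k (by norm_num : (5 : ℤ) ≠ 0))).mp h125)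
    exact (hp.dvd_or_dvd this).resolve_left hB
  exact hW 5 (by norm_num) (by exact_mod_cast hΔ) (by exact_mod_cast hc)

lemma c4_ne_zero {W : WeierstrassCurve ℤ} (hW : W.IsSemistableModel) : W.c₄ ≠ 0 := by
  intro h0
  have hu : IsUnit W.Δ := by
    rw [Int.isUnit_iff_natAbs_eq, Nat.eq_one_iff_not_exists_prime_dvd]
    intro p hp hd
    exact hW p hp (Int.natCast_dvd.mpr hd) (by rw [h0]; exact dvd_zero _)
  have hrel := W.c_relation
  rw [h0] at hrel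
  rcases Int.isUnit_iff.mp hu with h | h <;> rw [h] at hrel
  · nlinarith [sq_nonneg W.c₆]
  · obtain ⟨c, hc⟩ : ∃ c, c = W.c₆ := ⟨_, rfl⟩
    rw [← hc] at hrel
    have h1 : c < 42 := by nlinarith
    have h2 : -42 < c := by nlinarith
    interval_cases c <;> omega

theorem irreducible_three_or_five (W : WeierstrassCurve ℤ) (hΔ : W.Δ ≠ 0)
    (hW : W.IsSemistableModel) :
    W.ModRepIsIrreducible 3 ∨ W.ModRepIsIrreducible 5 := by
  by_contra hcon
  rw [not_or] at hcon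
  obtain ⟨h3, h5⟩ := hcon
  obtain ⟨W', hW'⟩ : ∃ W' : Affine ℚ, W' = W.map (Int.castRingHom ℚ) := ⟨_, rfl⟩
  simp only [WeierstrassCurve.ModRepIsIrreducible, ← hW'] at h3 h5
  have hΔq : W'.Δ = (W.Δ : ℚ) := by rw [hW']; simp [WeierstrassCurve.map_Δ]
  have hcq : W'.c₄ = (W.c₄ : ℚ) := by rw [hW']; simp [WeierstrassCurve.map_c₄]
  have hΔ0 : W'.Δ ≠ 0 := by rw [hΔq]; exact_mod_cast hΔ
  have hc0 : W'.c₄ ≠ 0 := by rw [hcq]; exact_mod_cast c4_ne_zero hW
  have hΔb : WeierstrassCurve.Δ (W'⁄Qbar) ≠ 0 := by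
    rw [show WeierstrassCurve.Δ (W'⁄Qbar) = algebraMap ℚ Qbar W'.Δ from
      WeierstrassCurve.map_Δ _ _]
    exact (map_ne_zero_iff _ (algebraMap ℚ Qbar).injective).mpr hΔ0
  -- mod 3
  obtain ⟨P, hP, hP3, hPσ⟩ : ∃ P : (W'⁄Qbar).Point, P ≠ 0 ∧ (3 : ℕ) • P = 0 ∧
      ∀ σ : Qbar ≃ₐ[ℚ] Qbar, ∃ k : ℕ, k < 3 ∧ σ • P = k • P := by
    have : Fact (Nat.Prime 3) := ⟨Nat.prime_three⟩
    have hnt : Nontrivial (Submodule.torsionBy ℤ (W'⁄Qbar).Point (3 : ℕ)) := by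
      obtain ⟨P, hP, hP3⟩ := exists_three_torsion (E := W'⁄Qbar) hΔb
      exact ⟨⟨P, (Submodule.mem_torsionBy_iff _ _).mpr ((natCast_zsmul P 3).trans hP3)⟩, 0,
        fun e => hP (congrArg Subtype.val e)⟩
    simp only [Affine.Point.GaloisRepIsIrreducible, not_and, not_forall, not_or] at h3
    obtain ⟨N, hst, hb, ht⟩ := h3 hnt
    obtain ⟨hfin, hcard⟩ := torsion_card W' 3 (WeierstrassCurve.Ψ₃ (W'⁄Qbar))
      (WeierstrassCurve.Ψ₃_ne_zero _ (by norm_num)) (WeierstrassCurve.natDegree_Ψ₃_le _)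
      (fun P h3P hP => by rw [← shB8_eq_eval]; exact three_torsion h3P hP)
    exact exists_stable_line W' hst hb ht hfin (lt_of_le_of_lt hcard (by norm_num))
  -- mod 5
  obtain ⟨Q, hQ, hQ5, hQσ⟩ : ∃ Q : (W'⁄Qbar).Point, Q ≠ 0 ∧ (5 : ℕ) • Q = 0 ∧
      ∀ σ : Qbar ≃ₐ[ℚ] Qbar, ∃ k : ℕ, k < 5 ∧ σ • Q = k • Q := by
    have : Fact (Nat.Prime 5) := ⟨by norm_num⟩
    have hnt : Nontrivial (Submodule.torsionBy ℤ (W'⁄Qbar).Point (5 : ℕ)) := by
      obtain ⟨P, hP, hP5⟩ := exists_five_torsion (E := W'⁄Qbar) hΔb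
      exact ⟨⟨P, (Submodule.mem_torsionBy_iff _ _).mpr ((natCast_zsmul P 5).trans hP5)⟩, 0,
        fun e => hP (congrArg Subtype.val e)⟩
    simp only [Affine.Point.GaloisRepIsIrreducible, not_and, not_forall, not_or] at h5
    obtain ⟨N, hst, hb, ht⟩ := h5 hnt
    have hdeg : (WeierstrassCurve.preΨ' (W'⁄Qbar) 5).natDegree = 12 := by
      rw [WeierstrassCurve.natDegree_preΨ' _ (n := 5) (by norm_num),
        if_neg (by decide : ¬ Even 5)]
      norm_num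
    obtain ⟨hfin, hcard⟩ := torsion_card W' 5 (WeierstrassCurve.preΨ' (W'⁄Qbar) 5)
      (Polynomial.ne_zero_of_natDegree_gt (n := 0) (by rw [hdeg]; norm_num)) hdeg.le
      (fun P h5P hP => five_torsion_preΨ h5P hP)
    exact exists_stable_line W' hst hb ht hfin (lt_of_le_of_lt hcard (by norm_num))
  obtain ⟨t, R, ht, hj, hE⟩ := invariants_of_lines W' hΔ0 hc0 hP hP3 hPσ hQ hQ5 hQσ
  rw [hΔq, hcq] at hj
  rcases t_values ht hE with rfl | rfl | rfl | rfl <;> norm_num at hj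
  · refine no_five_divisible hW (A := -2) (B := 1) (k := 2) (by omega) (by norm_num)
      (by norm_num) ?_
    qify; linarith
  · refine no_five_divisible hW (A := -32) (B := 24389) (k := 1) (by omega) (by norm_num)
      (by norm_num) ?_
    qify; linarith
  · refine no_five_divisible hW (A := -5832) (B := 10204192809) (k := 2) (by omega) (by norm_num)
      (by norm_num) ?_
    qify; linarith
  · refine no_five_divisible hW (A := -23887872) (B := -6848175699) (k := 1) (by omega)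
      (by norm_num) (by norm_num) ?_
    qify; linarith

end FLTAgent.X015
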