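/-
The two invariants `t` (from a stable line mod 3) and `R` (adding a stable line mod 5)
satisfy the equation of the modular curve of level 15.
-/
import Mathlib.AlgebraicGeometry.EllipticCurve.VariableChange
import Mathlib.Tactic

set_option autoImplicit false

namespace FLTAgent.X015

variable {K : Type*} [Field K]

/-- Invariants `b₂, b₄, b₆, b₈` of the curve translated to have origin above `r`. -/
def shB2 (W : WeierstrassCurve K) (r : K) : K := W.b₂ + 12 * r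
/-- See `shB2`. -/
def shB4 (W : WeierstrassCurve K) (r : K) : K := W.b₄ + r * W.b₂ + 6 * r ^ 2
/-- See `shB2`. -/
def shB6 (W : WeierstrassCurve K) (r : K) : K :=
  W.b₆ + 2 * r * W.b₄ + r ^ 2 * W.b₂ + 4 * r ^ 3
/-- See `shB2`; this is the value of the third division polynomial at `r`. -/
def shB8 (W : WeierstrassCurve K) (r : K) : K :=
  W.b₈ + 3 * r * W.b₆ + 3 * r ^ 2 * W.b₄ + r ^ 3 * W.b₂ + 3 * r ^ 4

variable (W : WeierstrassCurve K)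

lemma sh_relation (r : K) : 4 * shB8 W r = shB2 W r * shB6 W r - shB4 W r ^ 2 := by
  simp only [shB2, shB4, shB6, shB8, WeierstrassCurve.b₂, WeierstrassCurve.b₄,
    WeierstrassCurve.b₆, WeierstrassCurve.b₈]
  ring

lemma sh_delta (r : K) : W.Δ =
    -shB2 W r ^ 2 * shB8 W r - 8 * shB4 W r ^ 3 - 27 * shB6 W r ^ 2
      + 9 * shB2 W r * shB4 W r * shB6 W r := by
  have h := WeierstrassCurve.variableChange_Δ W ⟨1, r, 0, 0⟩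
  simp only [inv_one, Units.val_one, one_pow, one_mul] at h
  conv_lhs => rw [← h]
  rw [WeierstrassCurve.Δ]
  simp only [WeierstrassCurve.variableChange_b₂, WeierstrassCurve.variableChange_b₄,
    WeierstrassCurve.variableChange_b₆, WeierstrassCurve.variableChange_b₈,
    inv_one, Units.val_one, one_pow, one_mul, shB2, shB4, shB6, shB8]

lemma sh_c4 (r : K) : W.c₄ = shB2 W r ^ 2 - 24 * shB4 W r := by
  simp only [WeierstrassCurve.c₄, shB2, shB4]; ring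

lemma sh_shift2 (r d : K) : shB2 W (r + d) = shB2 W r + 12 * d := by
  simp only [shB2]; ring

lemma sh_shift4 (r d : K) : shB4 W (r + d) = shB4 W r + d * shB2 W r + 6 * d ^ 2 := by
  simp only [shB2, shB4]; ring

lemma sh_shift8 (r d : K) : shB8 W (r + d) =
    shB8 W r + 3 * d * shB6 W r + 3 * d ^ 2 * shB4 W r + d ^ 3 * shB2 W r + 3 * d ^ 4 := by
  simp only [shB2, shB4, shB6, shB8]; ring

/-- The Hauptmodul of level 3 attached to a root `x₀` of the third division polynomial. -/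
def tInv (x₀ : K) : K := shB2 W x₀ ^ 2 / shB4 W x₀ - 27

variable {W}

lemma shB4_ne_zero [CharZero K] {x₀ : K} (h : shB8 W x₀ = 0) (hΔ : W.Δ ≠ 0) (hc : W.c₄ ≠ 0) :
    shB4 W x₀ ≠ 0 := by
  intro h4
  have h26 : shB2 W x₀ * shB6 W x₀ = 0 := by
    have := sh_relation W x₀; rw [h, h4] at this; linear_combination -this
  rcases mul_eq_zero.mp h26 with h2 | h6
  · exact hc (by rw [sh_c4 W x₀, h2, h4]; ring)
  · exact hΔ (by rw [sh_delta W x₀, h, h4, h6]; ring)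

lemma tInv_delta [CharZero K] {x₀ : K} (h : shB8 W x₀ = 0) (hΔ : W.Δ ≠ 0) (hc : W.c₄ ≠ 0) :
    W.Δ * shB2 W x₀ ^ 2 = shB4 W x₀ ^ 4 * tInv W x₀ := by
  have h4 := shB4_ne_zero h hΔ hc
  have hr := sh_relation W x₀
  rw [h] at hr
  rw [sh_delta W x₀, h, tInv]
  field_simp
  linear_combination (27 * (shB2 W x₀ * shB6 W x₀ + shB4 W x₀ ^ 2)
    - 9 * shB2 W x₀ ^ 2 * shB4 W x₀) * hr

lemma tInv_ne_zero [CharZero K] {x₀ : K} (h : shB8 W x₀ = 0) (hΔ : W.Δ ≠ 0) (hc : W.c₄ ≠ 0) :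
    tInv W x₀ ≠ 0 := by
  intro ht
  have h2 : shB2 W x₀ = 0 := by
    simpa [ht, hΔ] using tInv_delta h hΔ hc
  simp [tInv, h2] at ht

/-- `j = (t + 27) (t + 3) ^ 3 / t`. -/
lemma tInv_j [CharZero K] {x₀ : K} (h : shB8 W x₀ = 0) (hΔ : W.Δ ≠ 0) (hc : W.c₄ ≠ 0) :
    W.c₄ ^ 3 * tInv W x₀ = W.Δ * ((tInv W x₀ + 27) * (tInv W x₀ + 3) ^ 3) := by
  have h4 := shB4_ne_zero h hΔ hc
  have e := tInv_delta h hΔ hc
  have e27 : (tInv W x₀ + 27) * shB4 W x₀ = shB2 W x₀ ^ 2 := by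
    rw [tInv]; field_simp; ring
  have e3 : (tInv W x₀ + 3) * shB4 W x₀ = W.c₄ := by
    rw [sh_c4 W x₀]; linear_combination e27
  apply mul_left_cancel₀ (pow_ne_zero 4 h4)
  calc shB4 W x₀ ^ 4 * (W.c₄ ^ 3 * tInv W x₀)
      = W.c₄ ^ 3 * (W.Δ * shB2 W x₀ ^ 2) := by rw [e]; ring
    _ = W.Δ * (((tInv W x₀ + 27) * shB4 W x₀) * ((tInv W x₀ + 3) * shB4 W x₀) ^ 3) := by
        rw [e27, e3]; ring
    _ = _ := by ring

/-- The equation of level 15 for the Tate normal form with parameter `b`. -/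
lemma tate_equation [CharZero K] {b X b2 b4 : K} (hb2 : b2 = (1 - b) ^ 2 - 4 * b)
    (hb4 : b4 = b ^ 2 - b) (hb : b ≠ 0) (hq : b ^ 2 - 11 * b - 1 ≠ 0)
    (hψ : 3 * X ^ 4 + b2 * X ^ 3 + 3 * b4 * X ^ 2 + 3 * b ^ 2 * X - b ^ 3 = 0)
    (hD : 6 * X ^ 2 + b2 * X + b4 ≠ 0) {t R : K}
    (ht : t = (b2 + 12 * X) ^ 2 / (6 * X ^ 2 + b2 * X + b4) - 27)
    (hR : R = X * (X - b) / b ^ 2) :
    t ^ 2 * R ^ 6 - t ^ 2 * R ^ 5 - 5 * t * R ^ 3 - 9 * R - 1 = 0 := by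
  subst hb2; subst hb4
  obtain ⟨V, hV⟩ : ∃ V : K, V = b ^ 3 * (b ^ 2 - 11 * b - 1) := ⟨_, rfl⟩
  obtain ⟨U, hU⟩ : ∃ U : K, U = (-b ^ 5 + 12 * b ^ 4 + 8 * b ^ 3)
      + (b ^ 5 - 13 * b ^ 4 + 14 * b ^ 3 - 4 * b ^ 2 + b) * X
      + (-b ^ 4 + 9 * b ^ 3 - 14 * b ^ 2 - 1) * X ^ 2 + (-3 * b ^ 2 - 3) * X ^ 3 := ⟨_, rfl⟩
  obtain ⟨Z, hZ⟩ : ∃ Z : K, Z = (2 * b ^ 4 - 4 * b ^ 3 - b ^ 2)
      + (b ^ 4 - 19 * b ^ 3 + 4 * b ^ 2 + 2 * b) * X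
      + (-b ^ 4 + 6 * b ^ 3 + 19 * b ^ 2 + 3 * b - 1) * X ^ 2
      + (-3 * b ^ 2 - 3) * X ^ 3 := ⟨_, rfl⟩
  obtain ⟨D, hDdef⟩ : ∃ D : K, D = 6 * X ^ 2 + ((1 - b) ^ 2 - 4 * b) * X + (b ^ 2 - b) := ⟨_, rfl⟩
  rw [← hDdef] at hD ht
  have h1 : U * D * b ^ 4 =
      V * ((((1 - b) ^ 2 - 4 * b + 12 * X) ^ 2) - 27 * D) * (X ^ 2 * (X - b) ^ 2) := by
    subst hU hV hDdef
    linear_combination ((b ^ 8 - 13 * b ^ 7 + 4 * b ^ 6 + 8 * b ^ 5)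
      + (-b ^ 7 - b ^ 6 + 66 * b ^ 5 + 11 * b ^ 4 + b ^ 3) * X
      + (6 * b ^ 5 - 66 * b ^ 4 - 6 * b ^ 3) * X ^ 2) * hψ
  have h2 : U * (X * (X - b)) = Z * b ^ 2 := by
    subst hU hZ
    linear_combination ((2 * b ^ 3 - 4 * b ^ 2 - b) + (-b ^ 2 - 1) * X) * hψ
  have h3 : b ^ 2 * (Z ^ 2 - Z * U - 5 * V * Z - V ^ 2) - 9 * V ^ 2 * (X * (X - b)) = 0 := by
    subst hU hV hZ
    linear_combination ((b ^ 9 - 14 * b ^ 8 + 13 * b ^ 7 + 212 * b ^ 6 + 20 * b ^ 5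
      - 11 * b ^ 4 - b ^ 3) + (3 * b ^ 7 - 33 * b ^ 6 - 33 * b ^ 4 - 3 * b ^ 3) * X) * hψ
  have hVne : V ≠ 0 := by rw [hV]; exact mul_ne_zero (pow_ne_zero 3 hb) hq
  have eU : U = V * (t * R ^ 2) := by
    subst ht hR
    field_simp
    linear_combination h1
  have eR : R * b ^ 2 = X * (X - b) := by rw [hR]; field_simp
  have eZ : Z = U * R := by
    apply mul_right_cancel₀ (pow_ne_zero 2 hb)
    rw [← h2, mul_assoc, eR]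
  rw [eZ, eU, ← eR] at h3
  have h0 : b ^ 2 * V ^ 2 *
      (t ^ 2 * R ^ 6 - t ^ 2 * R ^ 5 - 5 * t * R ^ 3 - 9 * R - 1) = 0 := by
    linear_combination h3
  exact (mul_eq_zero.mp h0).resolve_left (mul_ne_zero (pow_ne_zero 2 hb) (pow_ne_zero 2 hVne))

/-- The equation of level 15, in terms of the data `A₁, A₂, A₃` of a point of order 5 above `x₁`. -/
lemma level_fifteen [CharZero K] {x₀ x₁ A₁ A₂ A₃ : K} (hΔ : W.Δ ≠ 0) (hc : W.c₄ ≠ 0)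
    (hA₂ : A₂ ≠ 0) (hA₃ : A₃ ≠ 0) (h2 : shB2 W x₁ = A₁ ^ 2 + 4 * A₂)
    (h4 : shB4 W x₁ = A₁ * A₃) (h6 : shB6 W x₁ = A₃ ^ 2) (h8 : shB8 W x₁ = A₂ * A₃ ^ 2)
    (hrel : A₃ ^ 2 - A₁ * A₂ * A₃ + A₂ ^ 3 = 0) (h0 : shB8 W x₀ = 0) {t R : K}
    (ht : t = tInv W x₀) (hR : R = (x₀ - x₁) * (x₀ - x₁ + A₂) / A₂ ^ 2) :
    t ^ 2 * R ^ 6 - t ^ 2 * R ^ 5 - 5 * t * R ^ 3 - 9 * R - 1 = 0 := by
  obtain ⟨d, rfl⟩ : ∃ d, x₀ = x₁ + d := ⟨x₀ - x₁, by ring⟩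
  have hD0 := shB4_ne_zero h0 hΔ hc
  obtain ⟨b, hb⟩ : ∃ b, b = -A₂ ^ 3 / A₃ ^ 2 := ⟨_, rfl⟩
  obtain ⟨X, hX⟩ : ∃ X, X = d * A₂ ^ 2 / A₃ ^ 2 := ⟨_, rfl⟩
  have e1 : 1 - b = A₁ * A₂ / A₃ := by
    rw [hb]; field_simp; linear_combination hrel
  obtain ⟨b2, hb2⟩ : ∃ b2, b2 = (1 - b) ^ 2 - 4 * b := ⟨_, rfl⟩
  obtain ⟨b4, hb4⟩ : ∃ b4, b4 = b ^ 2 - b := ⟨_, rfl⟩
  have f2 : b2 + 12 * X = A₂ ^ 2 / A₃ ^ 2 * shB2 W (x₁ + d) := by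
    rw [sh_shift2, h2, hb2, e1, hb, hX]; field_simp; ring
  have fb2 : b2 = A₂ ^ 2 / A₃ ^ 2 * (A₁ ^ 2 + 4 * A₂) := by
    rw [hb2, e1, hb]; field_simp; ring
  have fb4 : b4 = A₂ ^ 4 / A₃ ^ 4 * (A₁ * A₃) := by
    rw [hb4, show b ^ 2 - b = -b * (1 - b) by ring, e1, hb]; field_simp
  have fb6 : b ^ 2 = A₂ ^ 6 / A₃ ^ 6 * A₃ ^ 2 := by rw [hb]; field_simp
  have fb8 : -b ^ 3 = A₂ ^ 8 / A₃ ^ 8 * (A₂ * A₃ ^ 2) := by rw [hb]; field_simp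
  have f4 : 6 * X ^ 2 + b2 * X + b4 = A₂ ^ 4 / A₃ ^ 4 * shB4 W (x₁ + d) := by
    rw [sh_shift4, h2, h4, fb2, fb4, hX]; field_simp; ring
  have f8 : 3 * X ^ 4 + b2 * X ^ 3 + 3 * b4 * X ^ 2 + 3 * b ^ 2 * X - b ^ 3 =
      A₂ ^ 8 / A₃ ^ 8 * shB8 W (x₁ + d) := by
    rw [sub_eq_add_neg, fb8, fb6, sh_shift8, h2, h4, h6, h8, fb2, fb4, hX]; field_simp; ring
  have hbne : b ≠ 0 := by
    rw [hb]; exact div_ne_zero (neg_ne_zero.mpr (pow_ne_zero 3 hA₂)) (pow_ne_zero 2 hA₃)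
  have hq : b ^ 2 - 11 * b - 1 ≠ 0 := by
    have key : A₂ ^ 12 / A₃ ^ 12 * W.Δ = b ^ 5 * (b ^ 2 - 11 * b - 1) := by
      have : A₁ = (A₃ ^ 2 + A₂ ^ 3) / (A₂ * A₃) := by
        field_simp; linear_combination -hrel
      rw [sh_delta W x₁, h2, h4, h6, h8, hb, this]; field_simp; ring
    intro hq
    rw [hq, mul_zero] at key
    simp [hA₂, hA₃, hΔ] at key
  refine tate_equation hb2 hb4 hbne hq (by rw [f8, h0, mul_zero]) ?_ ?_ ?_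
  · rw [f4]; exact mul_ne_zero (div_ne_zero (pow_ne_zero 4 hA₂) (pow_ne_zero 4 hA₃)) hD0
  · rw [f4, f2, ht, tInv]; field_simp
  · rw [hR, hX, hb]; field_simp; ring

/-- From the equation of level 15 to the quartic. -/
lemma quartic_of_equation {t R : K}
    (h : t ^ 2 * R ^ 6 - t ^ 2 * R ^ 5 - 5 * t * R ^ 3 - 9 * R - 1 = 0) :
    ((t * R ^ 3) ^ 2 - 11 * (t * R ^ 3) - 1) * ((t * R ^ 3) ^ 2 + t * R ^ 3 - 1) =
      (2 * (t * R ^ 3) * (t * R ^ 2) - ((t * R ^ 3) ^ 2 - 5 * (t * R ^ 3) - 1)) ^ 2 := by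
  linear_combination 4 * (t * R ^ 3) * (t * R ^ 2) * h

end FLTAgent.X015
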