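/-
Coordinates of points of order 3 and 5, and bounds for the corresponding torsion subgroups.
-/
import Mathlib.AlgebraicGeometry.EllipticCurve.Affine.Point
import Mathlib.AlgebraicGeometry.EllipticCurve.DivisionPolynomial.Degree
import Mathlib.FieldTheory.IsAlgClosed.Basic
import Mathlib.SetTheory.Cardinal.NatCard
import Fermat.Agent.X015.Algebra

set_option autoImplicit false

open WeierstrassCurve Polynomial
open WeierstrassCurve.Affine (Point)

namespace FLTAgent.X015

section Formulas

variable {K : Type*} [Field K]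

/-- Slope of the tangent line. -/
def tanSlope (E : WeierstrassCurve K) (x y : K) : K :=
  (3 * x ^ 2 + 2 * E.a₂ * x + E.a₄ - E.a₁ * y) / (2 * y + E.a₁ * x + E.a₃)

/-- Coefficient `a₁` after moving the point to the origin with horizontal tangent. -/
def tanA1 (E : WeierstrassCurve K) (x y : K) : K := E.a₁ + 2 * tanSlope E x y

/-- Coefficient `a₂` after moving the point to the origin with horizontal tangent. -/
def tanA2 (E : WeierstrassCurve K) (x y : K) : K :=
  E.a₂ - tanSlope E x y * E.a₁ + 3 * x - tanSlope E x y ^ 2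

/-- Coefficient `a₃` after moving the point to the origin. -/
def tanA3 (E : WeierstrassCurve K) (x y : K) : K := 2 * y + E.a₁ * x + E.a₃

variable {E : WeierstrassCurve K} {x y : K}

lemma tan_sh2 : shB2 E x = tanA1 E x y ^ 2 + 4 * tanA2 E x y := by
  simp only [shB2, tanA1, tanA2, WeierstrassCurve.b₂]; ring

lemma tan_sh4 (h3 : tanA3 E x y ≠ 0) : shB4 E x = tanA1 E x y * tanA3 E x y := by
  have : tanSlope E x y * tanA3 E x y = 3 * x ^ 2 + 2 * E.a₂ * x + E.a₄ - E.a₁ * y :=
    div_mul_cancel₀ _ h3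
  simp only [tanA1, tanA3] at this ⊢
  simp only [shB4, WeierstrassCurve.b₂, WeierstrassCurve.b₄]
  linear_combination (-2 : K) * this

lemma tan_sh6 (h : E.toAffine.Equation x y) : shB6 E x = tanA3 E x y ^ 2 := by
  rw [Affine.equation_iff] at h
  simp only [shB6, tanA3, WeierstrassCurve.b₂, WeierstrassCurve.b₄, WeierstrassCurve.b₆]
  linear_combination (-4 : K) * h

lemma tan_sh8 [CharZero K] (h : E.toAffine.Equation x y) (h3 : tanA3 E x y ≠ 0) :
    shB8 E x = tanA2 E x y * tanA3 E x y ^ 2 := by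
  apply mul_left_cancel₀ (by norm_num : (4 : K) ≠ 0)
  rw [sh_relation, tan_sh2 (y := y), tan_sh4 h3, tan_sh6 h]
  ring

lemma shB8_eq_eval (E : WeierstrassCurve K) (r : K) : shB8 E r = E.Ψ₃.eval r := by
  simp [shB8, WeierstrassCurve.Ψ₃]; ring

lemma preΨ_five_eval (E : WeierstrassCurve K) (r : K) :
    (E.preΨ' 5).eval r =
      (shB4 E r * shB8 E r - shB6 E r ^ 2) * shB6 E r ^ 2 - shB8 E r ^ 3 := by
  have h5 := E.preΨ'_odd 0
  norm_num [preΨ'_one, preΨ'_two, preΨ'_three, preΨ'_four] at h5
  have e4 : E.preΨ₄.eval r = shB4 E r * shB8 E r - shB6 E r ^ 2 := by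
    simp [WeierstrassCurve.preΨ₄, shB4, shB6, shB8, WeierstrassCurve.b₂, WeierstrassCurve.b₄,
      WeierstrassCurve.b₆, WeierstrassCurve.b₈]
    ring
  have e2 : E.Ψ₂Sq.eval r = shB6 E r := by
    simp [WeierstrassCurve.Ψ₂Sq, shB6]; ring
  rw [h5]
  simp [e4, e2, shB8_eq_eval]

end Formulas

section Points

set_option linter.unusedSectionVars false

variable {K : Type*} [Field K] [CharZero K] [DecidableEq K] {E : Affine K}

/-- The abscissa of a point, zero for the origin. -/
def xCoord : E.Point → K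
  | .zero => 0
  | @Point.some _ _ _ x _ _ => x

@[simp] lemma xCoord_some {x y : K} (h : E.Nonsingular x y) : xCoord (.some x y h) = x := rfl

lemma xCoord_neg (P : E.Point) : xCoord (-P) = xCoord P := by
  cases P <;> rfl

lemma tanA3_ne_zero_of_two {x y : K} {h : E.Nonsingular x y}
    (h2 : (Point.some x y h) + Point.some x y h ≠ 0) : tanA3 E x y ≠ 0 := by
  intro h3
  apply h2
  apply Point.add_of_Y_eq rfl
  simp only [tanA3] at h3
  simp only [Affine.negY]
  linear_combination h3

lemma double_point {x y : K} {h : E.Nonsingular x y} (h3 : tanA3 E x y ≠ 0) :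
    ∃ (y' : K) (h' : E.Nonsingular (x - tanA2 E x y) y'),
      Point.some x y h + Point.some x y h = Point.some _ _ h' ∧
      y' = -(tanSlope E x y * (-tanA2 E x y) + y) - E.a₁ * (x - tanA2 E x y) - E.a₃ := by
  have hy : y ≠ E.negY x y := by
    intro e; apply h3
    simp only [Affine.negY] at e
    simp only [tanA3]; linear_combination e
  have hd : y - E.negY x y = tanA3 E x y := by
    simp only [Affine.negY, tanA3]; ring
  have hs : E.slope x x y y = tanSlope E x y := by
    rw [Affine.slope_of_Y_ne rfl hy, hd]; rfl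
  have hX : E.addX x x (E.slope x x y y) = x - tanA2 E x y := by
    rw [hs]; simp only [Affine.addX, tanA2]; ring
  have hY : E.addY x x y (E.slope x x y y) =
      -(tanSlope E x y * (-tanA2 E x y) + y) - E.a₁ * (x - tanA2 E x y) - E.a₃ := by
    simp only [Affine.addY, Affine.negAddY, Affine.negY, hX]; rw [hs]; ring
  refine ⟨_, ?_, ?_, rfl⟩
  · rw [← hY, ← hX]; exact Affine.nonsingular_add h h fun e => hy e.2
  · rw [Point.add_self_of_Y_ne hy]
    simp only [Point.some.injEq]
    exact ⟨hX, hY⟩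

lemma three_torsion {P : E.Point} (h3 : (3 : ℕ) • P = 0) (hP : P ≠ 0) :
    shB8 E (xCoord P) = 0 := by
  rcases P with _ | ⟨x, y, h⟩
  · exact absurd rfl hP
  · have h2 : Point.some x y h + Point.some x y h ≠ 0 := fun e => hP (by
      rw [succ_nsmul, two_nsmul, e, zero_add] at h3; exact h3)
    have hA3 := tanA3_ne_zero_of_two h2
    obtain ⟨y', h', e, -⟩ := double_point (h := h) hA3
    have : Point.some x y h + Point.some x y h = -Point.some x y h :=
      eq_neg_of_add_eq_zero_left (by rw [← two_nsmul, ← succ_nsmul]; exact h3)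
    rw [e] at this
    have hx := congrArg xCoord this
    rw [xCoord_neg, xCoord_some, xCoord_some, sub_eq_self] at hx
    rw [xCoord_some, tan_sh8 h.1 hA3, hx, zero_mul]

lemma five_torsion {P : E.Point} (h5 : (5 : ℕ) • P = 0) (hP : P ≠ 0) :
    ∃ x y : K, E.Equation x y ∧ xCoord P = x ∧ xCoord (P + P) = x - tanA2 E x y ∧
      tanA2 E x y ≠ 0 ∧ tanA3 E x y ≠ 0 ∧
      tanA3 E x y ^ 2 - tanA1 E x y * tanA2 E x y * tanA3 E x y + tanA2 E x y ^ 3 = 0 := by
  rcases P with _ | ⟨x, y, h⟩
  · exact absurd rfl hP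
  · generalize hPdef : Point.some x y h = P at h5 hP
    have h2 : P + P ≠ 0 := fun e => hP (by
      rw [show (5 : ℕ) • P = (P + P) + (P + P) + P by abel, e, zero_add, zero_add] at h5
      exact h5)
    have hA3 : tanA3 E x y ≠ 0 := tanA3_ne_zero_of_two (h := h) (by rw [hPdef]; exact h2)
    obtain ⟨y', h', e, hy'⟩ := double_point (h := h) hA3
    rw [hPdef] at e
    have hA2 : tanA2 E x y ≠ 0 := by
      intro h0
      rcases Affine.Y_eq_of_X_eq h'.1 h.1 (by rw [h0, sub_zero]) with hy | hy
      · have : P + P = P := by rw [e, ← hPdef]; simp [h0, hy]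
        exact hP (by simpa using this)
      · have : P + P = -P := by rw [e, ← hPdef, Point.neg_some]; simp [h0, hy]
        have h3 : (3 : ℕ) • P = 0 := by rw [succ_nsmul, two_nsmul, this, neg_add_cancel]
        apply h2
        rw [show (5 : ℕ) • P = (3 : ℕ) • P + (P + P) by abel, h3, zero_add] at h5
        exact h5
    refine ⟨x, y, h.1, by rw [← hPdef, xCoord_some], by rw [e, xCoord_some], hA2, hA3, ?_⟩
    have hne : x ≠ x - tanA2 E x y := fun e' => hA2 (sub_eq_self.mp e'.symm)
    have e3 : P + (P + P) = Point.some _ _ (Affine.nonsingular_add h h' fun e' => hne e'.1) := by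
      rw [e, ← hPdef]; exact Point.add_of_X_ne hne
    have e32 : P + (P + P) = -(P + P) := eq_neg_of_add_eq_zero_left (by
      rw [← h5]; abel)
    rw [e3] at e32
    have hx := congrArg xCoord e32
    rw [xCoord_neg, e, xCoord_some, xCoord_some, Affine.slope_of_X_ne hne, sub_sub_cancel,
      Affine.addX] at hx
    have hsl : y - y' = tanA3 E x y - tanA2 E x y * (tanSlope E x y + E.a₁) := by
      rw [hy', tanA3]; ring
    rw [hsl] at hx
    field_simp at hx
    simp only [tanA1, tanA2, tanA3] at hx ⊢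
    linear_combination hx

lemma five_torsion_preΨ {P : E.Point} (h5 : (5 : ℕ) • P = 0) (hP : P ≠ 0) :
    (WeierstrassCurve.preΨ' E 5).eval (xCoord P) = 0 := by
  obtain ⟨x, y, h, hx, -, hA2, hA3, hrel⟩ := five_torsion h5 hP
  rw [hx, preΨ_five_eval, tan_sh4 hA3, tan_sh6 h, tan_sh8 h hA3]
  linear_combination (-(tanA3 E x y ^ 6)) * hrel

lemma exists_three_torsion [IsAlgClosed K] (hΔ : WeierstrassCurve.Δ E ≠ 0) :
    ∃ P : E.Point, P ≠ 0 ∧ (3 : ℕ) • P = 0 := by
  obtain ⟨r, hr⟩ := IsAlgClosed.exists_root (WeierstrassCurve.Ψ₃ E) (by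
    intro h
    have := natDegree_eq_zero_iff_degree_le_zero.mpr h.le
    rw [WeierstrassCurve.natDegree_Ψ₃ E (by norm_num)] at this
    norm_num at this)
  have h8 : shB8 E r = 0 := by rw [shB8_eq_eval]; exact hr
  obtain ⟨y, hy⟩ := IsAlgClosed.exists_root
    (X ^ 2 + C (E.a₁ * r + E.a₃) * X - C (r ^ 3 + E.a₂ * r ^ 2 + E.a₄ * r + E.a₆)) (by
      intro h
      have : (X ^ 2 + C (E.a₁ * r + E.a₃) * X
          - C (r ^ 3 + E.a₂ * r ^ 2 + E.a₄ * r + E.a₆) : K[X]).natDegree = 2 := by
        compute_degree!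
      have := natDegree_eq_zero_iff_degree_le_zero.mpr h.le
      omega)
  have he : E.Equation r y := by
    rw [Affine.equation_iff]; simp at hy; linear_combination hy
  have hns : E.Nonsingular r y := (E.equation_iff_nonsingular_of_Δ_ne_zero hΔ).mp he
  have hA3 : tanA3 E r y ≠ 0 := by
    intro h0
    have h6 : shB6 E r = 0 := by rw [tan_sh6 he, h0]; ring
    have h4 : shB4 E r = 0 := by
      have := sh_relation E r
      rw [h8, h6] at this
      simpa using this
    exact hΔ (by rw [sh_delta E r, h8, h6, h4]; ring)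
  have hA2 : tanA2 E r y = 0 := by
    have := tan_sh8 he hA3; rw [h8] at this
    simpa [hA3] using this.symm
  obtain ⟨y', h', e, hy'⟩ := double_point (h := hns) hA3
  refine ⟨.some r y hns, Point.some_ne_zero _, ?_⟩
  rw [succ_nsmul, two_nsmul, e]
  apply Point.add_of_Y_eq (by rw [hA2, sub_zero])
  rw [hy', hA2]; simp only [Affine.negY]; ring

lemma exists_five_torsion [IsAlgClosed K] (hΔ : WeierstrassCurve.Δ E ≠ 0) :
    ∃ P : E.Point, P ≠ 0 ∧ (5 : ℕ) • P = 0 := by
  obtain ⟨r, hr⟩ := IsAlgClosed.exists_root (WeierstrassCurve.preΨ' E 5) (by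
    intro h
    have hd := WeierstrassCurve.natDegree_preΨ' E (n := 5) (by norm_num)
    have := natDegree_eq_zero_iff_degree_le_zero.mpr h.le
    rw [hd] at this
    norm_num [show ¬ Even 5 by decide] at this)
  have hr' : (shB4 E r * shB8 E r - shB6 E r ^ 2) * shB6 E r ^ 2 - shB8 E r ^ 3 = 0 := by
    rw [← preΨ_five_eval]; exact hr
  have hsing : shB6 E r = 0 → shB8 E r = 0 → False := fun h6 h8 => by
    have := sh_relation E r
    rw [h8, h6] at this
    exact hΔ (by rw [sh_delta E r, h8, h6, show shB4 E r = 0 by simpa using this]; ring)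
  have h6 : shB6 E r ≠ 0 := fun h6 => hsing h6 (by simpa [h6] using hr')
  have h8 : shB8 E r ≠ 0 := fun h8 => h6 (by simpa [h8] using hr')
  obtain ⟨y, hy⟩ := IsAlgClosed.exists_root
    (X ^ 2 + C (E.a₁ * r + E.a₃) * X - C (r ^ 3 + E.a₂ * r ^ 2 + E.a₄ * r + E.a₆)) (by
      intro h
      have : (X ^ 2 + C (E.a₁ * r + E.a₃) * X
          - C (r ^ 3 + E.a₂ * r ^ 2 + E.a₄ * r + E.a₆) : K[X]).natDegree = 2 := by
        compute_degree!
      have := natDegree_eq_zero_iff_degree_le_zero.mpr h.le
      omega)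
  have he : E.Equation r y := by
    rw [Affine.equation_iff]; simp at hy; linear_combination hy
  have hns : E.Nonsingular r y := (E.equation_iff_nonsingular_of_Δ_ne_zero hΔ).mp he
  have hA3 : tanA3 E r y ≠ 0 := fun h0 => h6 (by rw [tan_sh6 he, h0]; ring)
  have hA2 : tanA2 E r y ≠ 0 := fun h0 => h8 (by rw [tan_sh8 he hA3, h0]; ring)
  have hrel : tanA3 E r y ^ 2 - tanA1 E r y * tanA2 E r y * tanA3 E r y + tanA2 E r y ^ 3 = 0 := by
    rw [tan_sh4 hA3, tan_sh6 he, tan_sh8 he hA3] at hr'
    have : -(tanA3 E r y ^ 6) * (tanA3 E r y ^ 2 - tanA1 E r y * tanA2 E r y * tanA3 E r y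
        + tanA2 E r y ^ 3) = 0 := by linear_combination hr'
    exact (mul_eq_zero.mp this).resolve_left (neg_ne_zero.mpr (pow_ne_zero 6 hA3))
  obtain ⟨y', h', e, hy'⟩ := double_point (h := hns) hA3
  generalize hPdef : Point.some r y hns = P at e
  have hP : P ≠ 0 := by rw [← hPdef]; exact Point.some_ne_zero _
  have hne : r ≠ r - tanA2 E r y := fun e' => hA2 (sub_eq_self.mp e'.symm)
  have e3 : P + (P + P) = Point.some _ _ (Affine.nonsingular_add hns h' fun e' => hne e'.1) := by
    rw [e, ← hPdef]; exact Point.add_of_X_ne hne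
  have hx : E.addX r (r - tanA2 E r y) (E.slope r (r - tanA2 E r y) y y') = r - tanA2 E r y := by
    rw [Affine.slope_of_X_ne hne, sub_sub_cancel, Affine.addX]
    have hsl : y - y' = tanA3 E r y - tanA2 E r y * (tanSlope E r y + E.a₁) := by
      rw [hy', tanA3]; ring
    rw [hsl]
    field_simp
    simp only [tanA1, tanA2, tanA3] at hrel ⊢
    linear_combination hrel
  refine ⟨P, hP, ?_⟩
  rcases Affine.Y_eq_of_X_eq (Affine.nonsingular_add hns h' fun e' => hne e'.1).1 h'.1 hx
    with hy2 | hy2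
  · have : P + (P + P) = P + P := by rw [e3, e]; simp only [Point.some.injEq]; exact ⟨hx, hy2⟩
    exact absurd (by simpa using this) hP
  · have h : P + (P + P) = -(P + P) := by rw [e3, e, Point.neg_some]; simp only [Point.some.injEq]; exact ⟨hx, hy2⟩
    rw [show (5 : ℕ) • P = (P + (P + P)) + (P + P) by abel, h, neg_add_cancel]

lemma card_bound (S : AddSubgroup E.Point) (f : K[X]) (hf : f ≠ 0)
    (hS : ∀ P ∈ S, P ≠ 0 → f.eval (xCoord P) = 0) :
    Finite S ∧ Nat.card S ≤ 2 * f.natDegree + 1 := by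
  classical
  let y0 : K → K := fun x => Classical.epsilon fun y => E.Equation x y
  let code : S → Option ({x // x ∈ f.roots.toFinset} × Bool) := fun P =>
    if h : (P : E.Point) = 0 then none
    else some (⟨xCoord (P : E.Point), by
        rw [Multiset.mem_toFinset, mem_roots']; exact ⟨hf, hS _ P.2 h⟩⟩,
      match (P : E.Point) with
      | .zero => true
      | @Point.some _ _ _ x y _ => decide (y = y0 x))
  have hinj : Function.Injective code := by
    rintro ⟨P, hP⟩ ⟨Q, hQ⟩ h
    apply Subtype.ext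
    rcases P with _ | ⟨x, y, hxy⟩ <;> rcases Q with _ | ⟨x', y', hxy'⟩
    · rfl
    · simp [code, ← Point.zero_def] at h
    · simp [code, ← Point.zero_def] at h
    · simp [code] at h
      obtain ⟨rfl, hy⟩ := h
      have h0 : E.Equation x (y0 x) := Classical.epsilon_spec (p := fun y => E.Equation x y) ⟨y, hxy.1⟩
      rcases Affine.Y_eq_of_X_eq hxy.1 h0 rfl with e | e <;>
        rcases Affine.Y_eq_of_X_eq hxy'.1 h0 rfl with e' | e'
      · simp [e, e']
      · have := hy.mp e; simp [e, this]
      · have := hy.mpr e'; simp [e', this]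
      · simp [e, e']
  refine ⟨Finite.of_injective code hinj, (Nat.card_le_card_of_injective code hinj).trans ?_⟩
  rw [Nat.card_eq_fintype_card, Fintype.card_option, Fintype.card_prod, Fintype.card_bool,
    Fintype.card_coe]
  have := (f.roots.toFinset_card_le).trans f.card_roots'
  omega

end Points

end FLTAgent.X015
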